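/-
S48 / Tower A1 (helper136) — piece ESK1, part 1: GENERIC raw Eichler–Shimura, definitions,
integral series and the inertia statement.

Port of `S29/H222` (helper222) from the function field of `X₀(N)` to an ARBITRARY subfield
`F₀ ⊆ ℚ((q))` (`F := laurentBaseChange ℚ̄ F₀`, `J := Pic0 ℚ̄ F` with the Prelude's generic
arithmetic Galois action) and an arbitrary "reduction field" `F_k ⊆ k((q))`, `k = A/𝔪`.

* `IsIntG F₀ A Fk U`   : `U ∈ A((q))` lies in `F`, its reduction lies in `F_k` and is nonzero;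
* `CoreG F₀ A Fk m`    : the Kummer core (= `S18.CoreStatement` for `F₀ = F_N`);
* `PGIG F₀ A Fk`       : principal divisors are generated by divisors of integral series;
* `StableG A Fk`       : `F_k` is stable under coefficientwise ring endomorphisms of `k`;
* `eskG_inertia`       : `CoreG + PGIG + StableG ⟹` inertia at `A` acts trivially on `J[m]`.

Everything is independent of the definition of the curve: it applies verbatim to `X₁(M)`,
`X_H`, `X₀(N)`.
-/
import Fermat.Agent.S29.H222.ESKFrob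

set_option autoImplicit false
set_option linter.style.haveILetI false

noncomputable section

namespace Fermat.Agent.S48.H136

open ModularCurve AlgebraicCurve HahnSeries IsLocalRing
open Fermat.Agent.S18 (Qb)
open Fermat.Agent.S29.H222 (IsDivOf decA decK galA)

/-! ### Definitions -/

section Defs

variable (F₀ : IntermediateField ℚ (LaurentSeries ℚ)) (A : ValuationSubring Qb)
  (Fk : IntermediateField (ResidueField A) (LaurentSeries (ResidueField A)))

/-- `U ∈ A((q))` lies in `F = ℚ̄ · F₀`, its coefficientwise reduction lies in `F_k` and is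
nonzero. -/
def IsIntG (U : LaurentSeries A) : Prop :=
  coeffMap A.subtype U ∈ laurentBaseChange Qb F₀ ∧
    coeffMap (residue A) U ∈ Fk ∧ coeffMap (residue A) U ≠ 0

variable {F₀ A Fk}

/-- The element of `F` given by an integral series. -/
def toFG {U : LaurentSeries A} (hU : IsIntG F₀ A Fk U) : laurentBaseChange Qb F₀ :=
  ⟨coeffMap A.subtype U, hU.1⟩

variable (F₀ A Fk)

/-- The generic Kummer core: two integral series with the same reduction whose quotient has a
divisor divisible by `m` differ by a constant times an `m`-th power. -/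
def CoreG (m : ℕ) : Prop :=
  ∀ (U₁ U₂ : LaurentSeries A) (h₁ : IsIntG F₀ A Fk U₁) (h₂ : IsIntG F₀ A Fk U₂),
    coeffMap (residue A) U₁ = coeffMap (residue A) U₂ →
    (∀ v : Place Qb (laurentBaseChange Qb F₀),
      (m : ℤ) ∣ v.ord (toFG h₁) - v.ord (toFG h₂)) →
    ∃ (c : Qb) (y : laurentBaseChange Qb F₀), c ≠ 0 ∧ y ≠ 0 ∧
      toFG h₁ = algebraMap Qb (laurentBaseChange Qb F₀) c * y ^ m * toFG h₂

/-- Divisors of integral series. -/
def intPrincipalG : Set (Divisor Qb (laurentBaseChange Qb F₀)) :=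
  {D | ∃ (y : LaurentSeries A) (hy : IsIntG F₀ A Fk y), ∀ P, D P = P.ord (toFG hy)}

/-- Principal divisors are generated by the divisors of integral series. -/
def PGIG : Prop :=
  Divisor.principal (K := Qb) (F := laurentBaseChange Qb F₀) ≤
    AddSubgroup.closure (intPrincipalG F₀ A Fk)

/-- The reduction field is stable under coefficientwise ring endomorphisms of `k`. -/
def StableG : Prop :=
  ∀ (φ : ResidueField A →+* ResidueField A) (x : LaurentSeries (ResidueField A)),
    x ∈ Fk → coeffMap φ x ∈ Fk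

end Defs

variable {F₀ : IntermediateField ℚ (LaurentSeries ℚ)} {A : ValuationSubring Qb}
  {Fk : IntermediateField (ResidueField A) (LaurentSeries (ResidueField A))}

/-! ### Algebra of integral series -/

theorem isIntG_one : IsIntG F₀ A Fk (1 : LaurentSeries A) :=
  ⟨by rw [map_one]; exact one_mem _, by rw [map_one]; exact one_mem _,
    by rw [map_one]; exact one_ne_zero⟩

theorem isIntG_mul {U V : LaurentSeries A} (hU : IsIntG F₀ A Fk U) (hV : IsIntG F₀ A Fk V) :
    IsIntG F₀ A Fk (U * V) :=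
  ⟨by rw [map_mul]; exact mul_mem hU.1 hV.1, by rw [map_mul]; exact mul_mem hU.2.1 hV.2.1,
    by rw [map_mul]; exact mul_ne_zero hU.2.2 hV.2.2⟩

theorem isIntG_pow {U : LaurentSeries A} (hU : IsIntG F₀ A Fk U) (n : ℕ) :
    IsIntG F₀ A Fk (U ^ n) :=
  ⟨by rw [map_pow]; exact pow_mem hU.1 n, by rw [map_pow]; exact pow_mem hU.2.1 n,
    by rw [map_pow]; exact pow_ne_zero n hU.2.2⟩

theorem toFG_ne_zero {U : LaurentSeries A} (hU : IsIntG F₀ A Fk U) : toFG hU ≠ 0 := by
  intro h0
  have h1 : coeffMap A.subtype U = 0 := congrArg Subtype.val h0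
  have h2 : U = 0 :=
    Fermat.Agent.S29.H222.esk_coeffMap_subtype_injective (by rw [h1, map_zero])
  exact hU.2.2 (by rw [h2, map_zero])

@[simp] theorem coe_toFG {U : LaurentSeries A} (hU : IsIntG F₀ A Fk U) :
    ((toFG hU : laurentBaseChange Qb F₀) : LaurentSeries Qb) = coeffMap A.subtype U := rfl

theorem toFG_mul {U V : LaurentSeries A} (hU : IsIntG F₀ A Fk U) (hV : IsIntG F₀ A Fk V) :
    toFG (isIntG_mul hU hV) = toFG hU * toFG hV :=
  Subtype.ext (map_mul _ _ _)

theorem toFG_pow {U : LaurentSeries A} (hU : IsIntG F₀ A Fk U) (n : ℕ) :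
    toFG (isIntG_pow hU n) = toFG hU ^ n :=
  Subtype.ext (map_pow _ _ _)

theorem toFG_one : toFG (isIntG_one (F₀ := F₀) (A := A) (Fk := Fk)) = 1 :=
  Subtype.ext (map_one _)

/-- Two integral series with the same image in `F` are equal. -/
theorem eq_of_toFG_eq {U V : LaurentSeries A} (hU : IsIntG F₀ A Fk U) (hV : IsIntG F₀ A Fk V)
    (h : toFG hU = toFG hV) : U = V :=
  Fermat.Agent.S29.H222.esk_coeffMap_subtype_injective (congrArg Subtype.val h)

/-! ### The decomposition group acts on integral series -/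

theorem isIntG_galA (hst : StableG A Fk) (g : A.decompositionSubgroup ℚ) {U : LaurentSeries A}
    (hU : IsIntG F₀ A Fk U) : IsIntG F₀ A Fk (galA g U) := by
  refine ⟨?_, ?_, ?_⟩
  · rw [Fermat.Agent.S29.H222.coeffMap_subtype_galA]
    exact coeffMap_mem_laurentBaseChange (g : Qb ≃ₐ[ℚ] Qb) hU.1
  · rw [Fermat.Agent.S29.H222.coeffMap_residue_galA]
    exact hst _ _ hU.2.1
  · rw [Fermat.Agent.S29.H222.coeffMap_residue_galA]
    exact Fermat.Agent.S29.H222.coeffMap_ne_zero_of_injective _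
      (Fermat.Agent.S29.H222.decK_injective g) hU.2.2

theorem toFG_galA (hst : StableG A Fk) (g : A.decompositionSubgroup ℚ) {U : LaurentSeries A}
    (hU : IsIntG F₀ A Fk U) :
    toFG (isIntG_galA hst g hU) = arithmeticGalois F₀ (g : Qb ≃ₐ[ℚ] Qb) • toFG hU := by
  apply Subtype.ext
  rw [coe_arithmeticGalois_smul]
  exact Fermat.Agent.S29.H222.coeffMap_subtype_galA g U

/-! ### Divisors of integral series -/

/-- A principal divisor is the difference of the divisors of two integral series. -/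
theorem exists_isIntG_of_principal (hpgi : PGIG F₀ A Fk)
    {D : Divisor Qb (laurentBaseChange Qb F₀)}
    (hD : D ∈ Divisor.principal (K := Qb) (F := laurentBaseChange Qb F₀)) :
    ∃ (U₁ U₂ : LaurentSeries A) (h₁ : IsIntG F₀ A Fk U₁) (h₂ : IsIntG F₀ A Fk U₂)
      (D₁ D₂ : Divisor Qb (laurentBaseChange Qb F₀)),
      IsDivOf (toFG h₁) D₁ ∧ IsDivOf (toFG h₂) D₂ ∧ D = D₁ - D₂ := by
  have hD' := hpgi hD
  clear hD
  induction hD' using AddSubgroup.closure_induction with
  | mem E hE =>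
      obtain ⟨y, hy, hEy⟩ := hE
      refine ⟨y, 1, hy, isIntG_one, E, 0, fun v => hEy v, fun v => ?_, by simp⟩
      rw [toFG_one]
      simp
  | zero =>
      refine ⟨1, 1, isIntG_one, isIntG_one, 0, 0, fun v => ?_, fun v => ?_, by simp⟩ <;>
      · rw [toFG_one]
        simp
  | add E E' _ _ hE hE' =>
      obtain ⟨U₁, U₂, h₁, h₂, D₁, D₂, hd₁, hd₂, rfl⟩ := hE
      obtain ⟨U₁', U₂', h₁', h₂', D₁', D₂', hd₁', hd₂', rfl⟩ := hE'
      refine ⟨U₁ * U₁', U₂ * U₂', isIntG_mul h₁ h₁', isIntG_mul h₂ h₂', D₁ + D₁', D₂ + D₂',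
        ?_, ?_, by abel⟩
      · rw [toFG_mul h₁ h₁']
        exact hd₁.mul (toFG_ne_zero h₁) (toFG_ne_zero h₁') hd₁'
      · rw [toFG_mul h₂ h₂']
        exact hd₂.mul (toFG_ne_zero h₂) (toFG_ne_zero h₂') hd₂'
  | neg E _ hE =>
      obtain ⟨U₁, U₂, h₁, h₂, D₁, D₂, hd₁, hd₂, rfl⟩ := hE
      exact ⟨U₂, U₁, h₂, h₁, D₂, D₁, hd₂, hd₁, by abel⟩

/-- `m`-torsion classes: `m • D` is principal. -/
theorem smul_mem_principal_of_torsionG {m : ℕ}
    (D : Divisor.degZero (K := Qb) (F := laurentBaseChange Qb F₀))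
    (hx : (m : ℤ) • (Pic0.mk D : Pic0 Qb (laurentBaseChange Qb F₀)) = 0) :
    (m : ℤ) • (D : Divisor Qb (laurentBaseChange Qb F₀))
      ∈ Divisor.principal (K := Qb) (F := laurentBaseChange Qb F₀) := by
  have hx' : ((m : ℤ) • D : Divisor.degZero (K := Qb) (F := laurentBaseChange Qb F₀)) ∈
      (Divisor.principal (K := Qb) (F := laurentBaseChange Qb F₀)).addSubgroupOf
        (Divisor.degZero (K := Qb) (F := laurentBaseChange Qb F₀)) := by
    have : Pic0.mk ((m : ℤ) • D) = 0 := hx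
    exact (QuotientAddGroup.eq_zero_iff _).mp this
  rw [AddSubgroup.mem_addSubgroupOf] at hx'
  simpa using hx'

/-- Two classes are equal as soon as the difference of the divisors is the divisor of a
function. -/
theorem pic0_mk_eq_of_isDivOfG
    (D D' : Divisor.degZero (K := Qb) (F := laurentBaseChange Qb F₀))
    {y : laurentBaseChange Qb F₀} (hy : y ≠ 0)
    (h : IsDivOf (K := Qb) y ((D' : Divisor Qb (laurentBaseChange Qb F₀))
      - (D : Divisor Qb (laurentBaseChange Qb F₀)))) :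
    (Pic0.mk D' : Pic0 Qb (laurentBaseChange Qb F₀)) = Pic0.mk D := by
  symm
  refine QuotientAddGroup.eq.mpr ?_
  rw [AddSubgroup.mem_addSubgroupOf]
  refine ⟨y, hy, fun v => ?_⟩
  have := h v
  rw [← this]
  simp [sub_eq_neg_add]

/-- A class is zero as soon as its divisor is the divisor of a function. -/
theorem pic0_mk_eq_zero_of_isDivOfG
    (D : Divisor.degZero (K := Qb) (F := laurentBaseChange Qb F₀))
    {y : laurentBaseChange Qb F₀} (hy : y ≠ 0)
    (h : IsDivOf (K := Qb) y (D : Divisor Qb (laurentBaseChange Qb F₀))) :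
    (Pic0.mk D : Pic0 Qb (laurentBaseChange Qb F₀)) = 0 := by
  refine (QuotientAddGroup.eq_zero_iff _).mpr ?_
  rw [AddSubgroup.mem_addSubgroupOf]
  exact ⟨y, hy, h⟩

theorem galois_smul_mkG (σ : Qb ≃ₐ[ℚ] Qb)
    (D : Divisor.degZero (K := Qb) (F := laurentBaseChange Qb F₀)) :
    σ • (Pic0.mk D : Pic0 Qb (laurentBaseChange Qb F₀))
      = Pic0.mk (SemilinearAut.degZeroSMulHom (arithmeticGalois F₀ σ) D) := by
  rw [galois_smul_pic0_def, SemilinearAut.pic0_smul_mk]

/-! ### ESK-U: inertia acts trivially -/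

/-- **Generic ESK-U.**  Inertia at `A` acts trivially on the `m`-torsion of
`Pic0 ℚ̄ (ℚ̄ · F₀)`. -/
theorem eskG_inertia {m : ℕ} (hm : m ≠ 0) (hcore : CoreG F₀ A Fk m) (hpgi : PGIG F₀ A Fk)
    (hst : StableG A Fk) :
    ∀ τ ∈ A.inertiaSubgroupIn ℚ, ∀ x : Pic0 Qb (laurentBaseChange Qb F₀),
      (m : ℤ) • x = 0 → τ • x = x := by
  intro τ hτ x hx
  obtain ⟨g, hg, rfl⟩ := hτ
  obtain ⟨D, rfl⟩ := Pic0.mk_surjective x
  obtain ⟨U₁, U₂, h₁, h₂, D₁, D₂, hd₁, hd₂, hDD⟩ :=
    exists_isIntG_of_principal hpgi (smul_mem_principal_of_torsionG D hx)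
  set G := arithmeticGalois F₀
    (((A.decompositionSubgroup ℚ).subtype g : Qb ≃ₐ[ℚ] Qb)) with hG
  have hV₁ : IsIntG F₀ A Fk (galA g U₁ * U₂) := isIntG_mul (isIntG_galA hst g h₁) h₂
  have hV₂ : IsIntG F₀ A Fk (U₁ * galA g U₂) := isIntG_mul h₁ (isIntG_galA hst g h₂)
  have hred : coeffMap (residue A) (galA g U₁ * U₂) = coeffMap (residue A) (U₁ * galA g U₂) := by
    rw [map_mul, map_mul, Fermat.Agent.S29.H222.coeffMap_residue_galA,
      Fermat.Agent.S29.H222.coeffMap_residue_galA,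
      Fermat.Agent.S29.H222.coeffMap_decK_of_mem_inertia hg,
      Fermat.Agent.S29.H222.coeffMap_decK_of_mem_inertia hg]
  have hgd₁ : IsDivOf (toFG (isIntG_galA hst g h₁)) (G • D₁) := by
    rw [toFG_galA hst]; exact hd₁.smul G
  have hgd₂ : IsDivOf (toFG (isIntG_galA hst g h₂)) (G • D₂) := by
    rw [toFG_galA hst]; exact hd₂.smul G
  have hdV₁ : IsDivOf (toFG hV₁) (G • D₁ + D₂) := by
    rw [toFG_mul (isIntG_galA hst g h₁) h₂]
    exact hgd₁.mul (toFG_ne_zero _) (toFG_ne_zero _) hd₂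
  have hdV₂ : IsDivOf (toFG hV₂) (D₁ + G • D₂) := by
    rw [toFG_mul h₁ (isIntG_galA hst g h₂)]
    exact hd₁.mul (toFG_ne_zero _) (toFG_ne_zero _) hgd₂
  have hkey : ∀ v : Place Qb (laurentBaseChange Qb F₀),
      (m : ℤ) * (G • (D : Divisor Qb (laurentBaseChange Qb F₀)) - D) v
        = v.ord (toFG hV₁) - v.ord (toFG hV₂) := by
    intro v
    rw [← hdV₁ v, ← hdV₂ v]
    have e1 : ((m : ℤ) • (D : Divisor Qb (laurentBaseChange Qb F₀))) v = D₁ v - D₂ v := by
      rw [hDD, Finsupp.sub_apply]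
    have e2 : ((m : ℤ) • (D : Divisor Qb (laurentBaseChange Qb F₀))) (G⁻¹ • v)
        = D₁ (G⁻¹ • v) - D₂ (G⁻¹ • v) := by
      rw [hDD, Finsupp.sub_apply]
    rw [Finsupp.smul_apply, smul_eq_mul] at e1 e2
    simp only [Finsupp.sub_apply, Finsupp.add_apply, SemilinearAut.divisor_smul_apply]
    linear_combination e2 - e1
  have hord : ∀ v : Place Qb (laurentBaseChange Qb F₀),
      (m : ℤ) ∣ v.ord (toFG hV₁) - v.ord (toFG hV₂) := fun v => ⟨_, (hkey v).symm⟩
  obtain ⟨c, y, hc, hy, hcy⟩ := hcore _ _ hV₁ hV₂ hred hord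
  have hE := Fermat.Agent.S29.H222.isDivOf_of_eq_const_mul_pow hm hc hy (toFG_ne_zero hV₂) hcy hkey
  show (((A.decompositionSubgroup ℚ).subtype g : Qb ≃ₐ[ℚ] Qb))
      • (Pic0.mk D : Pic0 Qb (laurentBaseChange Qb F₀)) = Pic0.mk D
  rw [galois_smul_pic0_def, SemilinearAut.pic0_smul_mk]
  exact pic0_mk_eq_of_isDivOfG D _ hy hE

end Fermat.Agent.S48.H136
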