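/-
S48 / Tower A1 (helper136) — piece ESK1, part 2: GENERIC raw Eichler–Shimura WITH DIAMOND.

Setting (see `ESKG.lean`): `F = ℚ̄ · F₀ ⊆ ℚ̄((q))`, `F_k ⊆ k((q))`, `A ⊆ ℚ̄` a valuation subring over
`p`.  Hecke data: ANY field `F'` over `ℚ̄` with two embeddings `α β : F → F'` (degeneracy maps)
and the Prelude's `HeckeInputs` (`α`, `β` integral, `α` finite with norm formula, fundamental
identity along `β`); `T := Pic0.correspondence β α`.  Diamond: `δ : F ≃ₐ[ℚ̄] F` commuting with the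
coefficientwise Galois action and preserving integral series.

NORM-ID with diamond (`NormIdG`):  `Nm_α (β y) = V_p y · det (secMat p (δ y))`
(for `X₁(M)`, `β = (q ↦ q^p)`: the conjugates of `y(pτ)` over `F₁(M)` are `y(pτ)` and
`(⟨p⟩⁻¹ y)((τ + b)/p)`, so `δ = ⟨p⟩⁻¹`; for `X₀(N)`: `δ = 1`).

`eskG_frob` :  `CoreG + PGIG + StableG + HeckeInputs + DiamondG + NormIdG ⟹` for every Frobenius
element `σ` at `A` and every `x ∈ Pic0 ℚ̄ F` with `m x = 0`:

      `σ² (δ x) - T (σ x) + p x = 0`.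

`eskG_frob'` : the same relation in the form `σ² x - T (δ⁻¹ σ x) + p δ⁻¹ x = 0`, i.e.
`σ² - T_p σ + p ⟨p⟩ = 0` with `T_p := T ∘ δ⁻¹`, `⟨p⟩ := δ⁻¹`.
-/
import Fermat.Agent.S48.H136.ESKG

set_option autoImplicit false
set_option linter.style.haveILetI false

noncomputable section

namespace Fermat.Agent.S48.H136

open ModularCurve AlgebraicCurve HahnSeries IsLocalRing
open Fermat.Agent.S18 (Qb)
open Fermat.Agent.S29.H222 (IsDivOf decA decK galA)
open Fermat.Agent.S37.H400 (secMat)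

/-! ### The two-argument formal Kronecker norm -/

section Kron2

variable {R : Type*} [CommRing R]

/-- `kron2 p f g = V_p f · det (secMat p g)`; `kron2 p f f = kronNorm p f`. -/
def kron2 (p : ℕ) [NeZero p] (f g : LaurentSeries R) : LaurentSeries R :=
  qExpand R p f * (secMat p g).det

theorem kron2_self (p : ℕ) [NeZero p] (f : LaurentSeries R) :
    kron2 p f f = Fermat.Agent.S37.H400.kronNorm p f := rfl

theorem coeffMap_kron2 {S : Type*} [CommRing S] (φ : R →+* S) (p : ℕ) [NeZero p]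
    (f g : LaurentSeries R) :
    coeffMap φ (kron2 p f g) = kron2 p (coeffMap φ f) (coeffMap φ g) := by
  rw [kron2, kron2, map_mul, Fermat.Agent.S37.H400.coeffMap_qExpand_h400, RingHom.map_det,
    RingHom.mapMatrix_apply, Fermat.Agent.S37.H400.secMat_coeffMap]

theorem kron2_char [IsDomain R] (p : ℕ) [Fact p.Prime] [CharP R p] (f g : LaurentSeries R) :
    haveI : NeZero p := ⟨(Fact.out : p.Prime).ne_zero⟩
    kron2 p f g = qExpand R p f * coeffMap (frobenius R p) g := by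
  haveI : NeZero p := ⟨(Fact.out : p.Prime).ne_zero⟩
  show kron2 p f g = _
  rw [kron2, Fermat.Agent.S37.H400.det_secMat_char]

end Kron2

/-! ### Divisors and algebra automorphisms -/

section AlgEquivDiv

variable {K F : Type*} [Field K] [Field F] [Algebra K F]

theorem isDivOf_algEquiv (δ : F ≃ₐ[K] F) {f : F} {D : Divisor K F} (hf : IsDivOf f D) :
    IsDivOf (δ f) (δ • D) := fun w => by
  rw [Divisor.smul_apply, hf (δ⁻¹ • w)]
  have h := Place.ord_smul δ (δ⁻¹ • w) f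
  rw [smul_inv_smul] at h
  exact h.symm

end AlgEquivDiv

variable {F₀ : IntermediateField ℚ (LaurentSeries ℚ)} {A : ValuationSubring Qb}
  {Fk : IntermediateField (ResidueField A) (LaurentSeries (ResidueField A))}

/-! ### The Hecke correspondence on divisors of functions -/

section Hecke

variable {F' : Type*} [Field F'] [Algebra Qb F']
  (α β : laurentBaseChange Qb F₀ →ₐ[Qb] F')

/-- The norm along `α` of `β y`: the function whose divisor is `T (div y)`. -/
def normG (y : laurentBaseChange Qb F₀) : laurentBaseChange Qb F₀ :=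
  letI := algebraAlong α
  Algebra.norm (laurentBaseChange Qb F₀) (β y)

variable {α β}

/-- `β^* (div y) = div (β y)`. -/
theorem isDivOf_pullbackAlongG [HasPrincipalDivisors Qb F'] (hβ : β.toRingHom.IsIntegral)
    {y : laurentBaseChange Qb F₀} {E : Divisor Qb (laurentBaseChange Qb F₀)}
    (hE : IsDivOf y E) :
    IsDivOf (K := Qb) (β y) (Divisor.pullbackAlong β hβ E) := by
  intro w
  letI := algebraAlong β
  haveI := isScalarTower_along β
  haveI := isIntegral_along β hβ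
  exact Divisor.pullback_apply_eq_ord hE w

/-- `α_* (div z) = div (Nm_α z)`. -/
theorem isDivOf_pushforwardAlongG (hα : α.toRingHom.IsIntegral) (hfin : FiniteAlong Qb α)
    (hN : NormFormulaAlong Qb α hfin) {z : F'} (hz : z ≠ 0) {E : Divisor Qb F'}
    (hE : IsDivOf z E) :
    IsDivOf (K := Qb)
      (letI := algebraAlong α
       Algebra.norm (laurentBaseChange Qb F₀) z)
      (Divisor.pushforwardAlong α hα E) := by
  intro v
  letI := algebraAlong α
  haveI := isScalarTower_along α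
  haveI := isIntegral_along α hα
  haveI : Module.Finite (laurentBaseChange Qb F₀) F' := hfin
  exact hN z hz E hE v

/-- `T (div y) = div (Nm_α (β y))` on divisors. -/
theorem isDivOf_correspondenceG [HasPrincipalDivisors Qb F'] (hα : α.toRingHom.IsIntegral)
    (hβ : β.toRingHom.IsIntegral) (hfin : FiniteAlong Qb α) (hN : NormFormulaAlong Qb α hfin)
    {y : laurentBaseChange Qb F₀} (hy : y ≠ 0) {E : Divisor Qb (laurentBaseChange Qb F₀)}
    (hE : IsDivOf y E) :
    IsDivOf (K := Qb) (normG α β y) (Divisor.correspondence β α hβ hα E) := by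
  have hβy : β y ≠ 0 := by
    intro h
    exact hy (β.toRingHom.injective (by simpa using h))
  exact isDivOf_pushforwardAlongG hα hfin hN hβy (isDivOf_pullbackAlongG hβ hE)

end Hecke

/-! ### Diamond data and NORM-ID -/

/-- A "diamond" automorphism of `F = ℚ̄ · F₀`: it commutes with the coefficientwise Galois action
and preserves integral series. -/
structure DiamondG (F₀ : IntermediateField ℚ (LaurentSeries ℚ)) (A : ValuationSubring Qb)
    (Fk : IntermediateField (ResidueField A) (LaurentSeries (ResidueField A)))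
    (δ : laurentBaseChange Qb F₀ ≃ₐ[Qb] laurentBaseChange Qb F₀) : Prop where
  galois : ∀ (σ : Qb ≃ₐ[ℚ] Qb) (y : laurentBaseChange Qb F₀),
    δ (arithmeticGalois F₀ σ • y) = arithmeticGalois F₀ σ • δ y
  integral : ∀ (U : LaurentSeries A) (hU : IsIntG F₀ A Fk U),
    ∃ (W : LaurentSeries A) (hW : IsIntG F₀ A Fk W), toFG hW = δ (toFG hU)

/-- The trivial diamond (`X₀(N)`). -/
theorem diamondG_refl (F₀ : IntermediateField ℚ (LaurentSeries ℚ)) (A : ValuationSubring Qb)
    (Fk : IntermediateField (ResidueField A) (LaurentSeries (ResidueField A))) :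
    DiamondG F₀ A Fk AlgEquiv.refl :=
  ⟨fun _ _ => rfl, fun U hU => ⟨U, hU, rfl⟩⟩

/-- **NORM-ID with diamond**: the norm along `α` of `β y` has `q`-expansion
`V_p y · det (secMat p (δ y))`. -/
def NormIdG {F' : Type*} [Field F'] [Algebra Qb F']
    (α β : laurentBaseChange Qb F₀ →ₐ[Qb] F') (p : ℕ) [NeZero p]
    (δ : laurentBaseChange Qb F₀ ≃ₐ[Qb] laurentBaseChange Qb F₀) : Prop :=
  ∀ y : laurentBaseChange Qb F₀,
    ((normG α β y : laurentBaseChange Qb F₀) : LaurentSeries Qb)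
      = kron2 p (y : LaurentSeries Qb) ((δ y : laurentBaseChange Qb F₀) : LaurentSeries Qb)

/-! ### The integral Kronecker norm -/

section Kron

variable {p : ℕ} [Fact p.Prime] [NeZero p] [CharP (ResidueField A) p]

/-- Reduction of `kron2 (σU) (σW)` for a Frobenius element `σ`. -/
theorem coeffMap_residue_kron2_galA {g : A.decompositionSubgroup ℚ}
    (hgk : decK g = frobenius (ResidueField A) p) (U W : LaurentSeries A) :
    coeffMap (residue A) (kron2 p (galA g U) (galA g W))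
      = coeffMap (residue A) U ^ p
        * coeffMap (decK g) (coeffMap (decK g) (coeffMap (residue A) W)) := by
  have h1 := kron2_char p (coeffMap (residue A) (galA g U)) (coeffMap (residue A) (galA g W))
  have h2 := Fermat.Agent.S37.H400.laurent_pow_char p (coeffMap (residue A) U)
  rw [Fermat.Agent.S29.H222.coeffMap_residue_galA,
    Fermat.Agent.S29.H222.coeffMap_residue_galA, ← hgk] at h1
  rw [← hgk] at h2
  rw [coeffMap_kron2, Fermat.Agent.S29.H222.coeffMap_residue_galA,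
    Fermat.Agent.S29.H222.coeffMap_residue_galA, h1, h2]

variable {F' : Type*} [Field F'] [Algebra Qb F']
  {α β : laurentBaseChange Qb F₀ →ₐ[Qb] F'}
  {δ : laurentBaseChange Qb F₀ ≃ₐ[Qb] laurentBaseChange Qb F₀}

/-- `δ (σ U) = σ W` when `δ U = W`. -/
theorem toFG_galA_diamond (hst : StableG A Fk) (hδ : DiamondG F₀ A Fk δ)
    (g : A.decompositionSubgroup ℚ) {U W : LaurentSeries A}
    (hU : IsIntG F₀ A Fk U) (hW : IsIntG F₀ A Fk W) (hUW : toFG hW = δ (toFG hU)) :
    toFG (isIntG_galA hst g hW) = δ (toFG (isIntG_galA hst g hU)) := by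
  rw [toFG_galA hst g hW, toFG_galA hst g hU, hδ.galois, hUW]

/-- The integral Kronecker norm `K(U) = kron2 p (σU) (σW)`, `W = δ U`. -/
theorem isIntG_kron2_galA (hst : StableG A Fk) (hδ : DiamondG F₀ A Fk δ)
    (hnid : NormIdG α β p δ) {g : A.decompositionSubgroup ℚ}
    (hgk : decK g = frobenius (ResidueField A) p) {U W : LaurentSeries A}
    (hU : IsIntG F₀ A Fk U) (hW : IsIntG F₀ A Fk W) (hUW : toFG hW = δ (toFG hU)) :
    IsIntG F₀ A Fk (kron2 p (galA g U) (galA g W)) := by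
  refine ⟨?_, ?_, ?_⟩
  · rw [coeffMap_kron2]
    have h := hnid (toFG (isIntG_galA hst g hU))
    rw [← toFG_galA_diamond hst hδ g hU hW hUW, coe_toFG, coe_toFG] at h
    rw [← h]
    exact (normG α β (toFG (isIntG_galA hst g hU))).2
  · rw [coeffMap_residue_kron2_galA hgk]
    exact mul_mem (pow_mem hU.2.1 p) (hst _ _ (hst _ _ hW.2.1))
  · rw [coeffMap_residue_kron2_galA hgk]
    exact mul_ne_zero (pow_ne_zero p hU.2.2)
      (Fermat.Agent.S29.H222.coeffMap_ne_zero_of_injective _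
        (Fermat.Agent.S29.H222.decK_injective g)
        (Fermat.Agent.S29.H222.coeffMap_ne_zero_of_injective _
          (Fermat.Agent.S29.H222.decK_injective g) hW.2.2))

theorem toFG_kron2_galA (hst : StableG A Fk) (hδ : DiamondG F₀ A Fk δ)
    (hnid : NormIdG α β p δ) {g : A.decompositionSubgroup ℚ}
    (hgk : decK g = frobenius (ResidueField A) p) {U W : LaurentSeries A}
    (hU : IsIntG F₀ A Fk U) (hW : IsIntG F₀ A Fk W) (hUW : toFG hW = δ (toFG hU)) :
    toFG (isIntG_kron2_galA hst hδ hnid hgk hU hW hUW)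
      = normG α β (toFG (isIntG_galA hst g hU)) := by
  apply Subtype.ext
  have h := hnid (toFG (isIntG_galA hst g hU))
  rw [← toFG_galA_diamond hst hδ g hU hW hUW, coe_toFG, coe_toFG] at h
  rw [coe_toFG, coeffMap_kron2, h]

end Kron

/-! ### ESK-F with diamond -/

/-- **Generic ESK-F with diamond.**  Every Frobenius element `σ` at `A` satisfies
`σ² (δ x) - T (σ x) + p x = 0` on the `m`-torsion of `Pic0 ℚ̄ (ℚ̄ · F₀)`. -/
theorem eskG_frob {p : ℕ} (hp : p.Prime) {m : ℕ} (hm : m ≠ 0) (hA : A.LiesOverPrime p)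
    (hcore : CoreG F₀ A Fk m) (hpgi : PGIG F₀ A Fk) (hst : StableG A Fk)
    {F' : Type*} [Field F'] [Algebra Qb F'] [HasPrincipalDivisors Qb F']
    (α β : laurentBaseChange Qb F₀ →ₐ[Qb] F')
    (hα : α.toRingHom.IsIntegral) (hβ : β.toRingHom.IsIntegral)
    (hFI : FundamentalIdentityAlong Qb β hβ) (hfin : FiniteAlong Qb α)
    (hN : NormFormulaAlong Qb α hfin)
    (δ : laurentBaseChange Qb F₀ ≃ₐ[Qb] laurentBaseChange Qb F₀) (hδ : DiamondG F₀ A Fk δ)
    (hnid : haveI : NeZero p := ⟨hp.ne_zero⟩; NormIdG α β p δ) :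
    ∀ σ : Qb ≃ₐ[ℚ] Qb, A.IsFrobeniusAt σ p →
      ∀ x : Pic0 Qb (laurentBaseChange Qb F₀), (m : ℤ) • x = 0 →
        σ • σ • (δ • x) - Pic0.correspondence β α hβ hα hFI hfin hN (σ • x) + (p : ℤ) • x = 0 := by
  intro σ hσ x hx
  haveI : NeZero p := ⟨hp.ne_zero⟩
  haveI : Fact p.Prime := ⟨hp⟩
  haveI : CharP (ResidueField A) p :=
    Fermat.Agent.S29.H222.charP_residueField_of_liesOver hp hA
  obtain ⟨hdec, hfrob⟩ := hσ
  set g : A.decompositionSubgroup ℚ := ⟨σ, hdec⟩ with hg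
  have hgk : decK g = frobenius (ResidueField A) p := RingHom.ext fun x => hfrob x
  obtain ⟨D, rfl⟩ := Pic0.mk_surjective x
  obtain ⟨U₁, U₂, h₁, h₂, D₁, D₂, hd₁, hd₂, hDD⟩ :=
    exists_isIntG_of_principal hpgi (smul_mem_principal_of_torsionG D hx)
  obtain ⟨W₁, hW₁, hUW₁⟩ := hδ.integral U₁ h₁
  obtain ⟨W₂, hW₂, hUW₂⟩ := hδ.integral U₂ h₂
  set G := arithmeticGalois F₀ σ with hG
  -- the integral series
  have hg₁ := isIntG_galA hst g h₁
  have hg₂ := isIntG_galA hst g h₂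
  have hgW₁ := isIntG_galA hst g hW₁
  have hgW₂ := isIntG_galA hst g hW₂
  have hggW₁ := isIntG_galA hst g hgW₁
  have hggW₂ := isIntG_galA hst g hgW₂
  have hK₁ := isIntG_kron2_galA hst hδ hnid hgk h₁ hW₁ hUW₁
  have hK₂ := isIntG_kron2_galA hst hδ hnid hgk h₂ hW₂ hUW₂
  have hV₁ : IsIntG F₀ A Fk
      (galA g (galA g W₁) * U₁ ^ p * kron2 p (galA g U₂) (galA g W₂)) :=
    isIntG_mul (isIntG_mul hggW₁ (isIntG_pow h₁ p)) hK₂
  have hV₂ : IsIntG F₀ A Fk
      (galA g (galA g W₂) * U₂ ^ p * kron2 p (galA g U₁) (galA g W₁)) :=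
    isIntG_mul (isIntG_mul hggW₂ (isIntG_pow h₂ p)) hK₁
  -- equal reductions
  have hred : coeffMap (residue A)
        (galA g (galA g W₁) * U₁ ^ p * kron2 p (galA g U₂) (galA g W₂))
      = coeffMap (residue A)
        (galA g (galA g W₂) * U₂ ^ p * kron2 p (galA g U₁) (galA g W₁)) := by
    simp only [map_mul, map_pow, Fermat.Agent.S29.H222.coeffMap_residue_galA,
      coeffMap_residue_kron2_galA hgk]
    ring
  -- divisors
  have hδ₁ : IsDivOf (toFG hW₁) (δ • D₁) := by rw [hUW₁]; exact isDivOf_algEquiv δ hd₁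
  have hδ₂ : IsDivOf (toFG hW₂) (δ • D₂) := by rw [hUW₂]; exact isDivOf_algEquiv δ hd₂
  have hσ₁ : IsDivOf (toFG hg₁) (G • D₁) := by rw [toFG_galA hst]; exact hd₁.smul G
  have hσ₂ : IsDivOf (toFG hg₂) (G • D₂) := by rw [toFG_galA hst]; exact hd₂.smul G
  have hσW₁ : IsDivOf (toFG hgW₁) (G • δ • D₁) := by rw [toFG_galA hst]; exact hδ₁.smul G
  have hσW₂ : IsDivOf (toFG hgW₂) (G • δ • D₂) := by rw [toFG_galA hst]; exact hδ₂.smul G
  have hσσ₁ : IsDivOf (toFG hggW₁) (G • G • δ • D₁) := by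
    rw [toFG_galA hst]; exact hσW₁.smul G
  have hσσ₂ : IsDivOf (toFG hggW₂) (G • G • δ • D₂) := by
    rw [toFG_galA hst]; exact hσW₂.smul G
  have hp₁ : IsDivOf (toFG (isIntG_pow h₁ p)) ((p : ℤ) • D₁) := by
    rw [toFG_pow]; exact hd₁.pow p
  have hp₂ : IsDivOf (toFG (isIntG_pow h₂ p)) ((p : ℤ) • D₂) := by
    rw [toFG_pow]; exact hd₂.pow p
  have hT₁ : IsDivOf (toFG hK₁) (Divisor.correspondence β α hβ hα (G • D₁)) := by
    rw [toFG_kron2_galA hst hδ hnid hgk h₁ hW₁ hUW₁]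
    exact isDivOf_correspondenceG hα hβ hfin hN (toFG_ne_zero hg₁) hσ₁
  have hT₂ : IsDivOf (toFG hK₂) (Divisor.correspondence β α hβ hα (G • D₂)) := by
    rw [toFG_kron2_galA hst hδ hnid hgk h₂ hW₂ hUW₂]
    exact isDivOf_correspondenceG hα hβ hfin hN (toFG_ne_zero hg₂) hσ₂
  have hdV₁ : IsDivOf (toFG hV₁)
      (G • G • δ • D₁ + (p : ℤ) • D₁ + Divisor.correspondence β α hβ hα (G • D₂)) := by
    rw [toFG_mul (isIntG_mul hggW₁ (isIntG_pow h₁ p)) hK₂, toFG_mul hggW₁ (isIntG_pow h₁ p)]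
    exact ((hσσ₁.mul (toFG_ne_zero _) (toFG_ne_zero _) hp₁).mul
      (mul_ne_zero (toFG_ne_zero _) (toFG_ne_zero _)) (toFG_ne_zero _) hT₂)
  have hdV₂ : IsDivOf (toFG hV₂)
      (G • G • δ • D₂ + (p : ℤ) • D₂ + Divisor.correspondence β α hβ hα (G • D₁)) := by
    rw [toFG_mul (isIntG_mul hggW₂ (isIntG_pow h₂ p)) hK₁, toFG_mul hggW₂ (isIntG_pow h₂ p)]
    exact ((hσσ₂.mul (toFG_ne_zero _) (toFG_ne_zero _) hp₂).mul
      (mul_ne_zero (toFG_ne_zero _) (toFG_ne_zero _)) (toFG_ne_zero _) hT₁)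
  -- the divisor of the relation
  set Dv : Divisor Qb (laurentBaseChange Qb F₀) := (D : Divisor Qb (laurentBaseChange Qb F₀))
    with hDv
  set E : Divisor Qb (laurentBaseChange Qb F₀) :=
    G • G • δ • Dv - Divisor.correspondence β α hβ hα (G • Dv) + (p : ℤ) • Dv with hE
  have hGz : ∀ X : Divisor Qb (laurentBaseChange Qb F₀),
      G • ((m : ℤ) • X) = (m : ℤ) • (G • X) :=
    fun X => map_zsmul (DistribSMul.toAddMonoidHom (Divisor Qb (laurentBaseChange Qb F₀)) G) m X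
  have hδz : ∀ X : Divisor Qb (laurentBaseChange Qb F₀),
      δ • ((m : ℤ) • X) = (m : ℤ) • (δ • X) :=
    fun X => map_zsmul (DistribSMul.toAddMonoidHom (Divisor Qb (laurentBaseChange Qb F₀)) δ) m X
  have hmE : (m : ℤ) • E
      = (G • G • δ • D₁ + (p : ℤ) • D₁ + Divisor.correspondence β α hβ hα (G • D₂))
        - (G • G • δ • D₂ + (p : ℤ) • D₂ + Divisor.correspondence β α hβ hα (G • D₁)) := by
    have e1 : (m : ℤ) • E = G • G • δ • ((m : ℤ) • Dv)
        - Divisor.correspondence β α hβ hα (G • ((m : ℤ) • Dv))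
        + (p : ℤ) • ((m : ℤ) • Dv) := by
      rw [hE, smul_add, smul_sub, hδz, hGz, hGz, hGz, map_zsmul, smul_comm (m : ℤ) (p : ℤ) Dv]
    rw [e1, hDD]
    simp only [smul_sub, map_sub]
    abel
  have hkey : ∀ v : Place Qb (laurentBaseChange Qb F₀),
      (m : ℤ) * E v = v.ord (toFG hV₁) - v.ord (toFG hV₂) := by
    intro v
    rw [← hdV₁ v, ← hdV₂ v, ← Finsupp.sub_apply, ← hmE, Finsupp.smul_apply, smul_eq_mul]
  have hord : ∀ v : Place Qb (laurentBaseChange Qb F₀),
      (m : ℤ) ∣ v.ord (toFG hV₁) - v.ord (toFG hV₂) := fun v => ⟨_, (hkey v).symm⟩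
  obtain ⟨c, y, hc, hy, hcy⟩ := hcore _ _ hV₁ hV₂ hred hord
  have hEy : IsDivOf y E :=
    Fermat.Agent.S29.H222.isDivOf_of_eq_const_mul_pow hm hc hy (toFG_ne_zero hV₂) hcy hkey
  -- conclusion in `Pic0`
  rw [Pic0.smul_mk, galois_smul_mkG, galois_smul_mkG, galois_smul_mkG, Pic0.correspondence_mk]
  have hfinal : (Pic0.mk (SemilinearAut.degZeroSMulHom G
        (SemilinearAut.degZeroSMulHom G (Pic0.degZeroSMulHom δ D)))
      - Pic0.mk (Pic0.degZeroCorrespondence β α hβ hα hFI (SemilinearAut.degZeroSMulHom G D))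
      + (p : ℤ) • Pic0.mk D : Pic0 Qb (laurentBaseChange Qb F₀))
      = Pic0.mk (SemilinearAut.degZeroSMulHom G
          (SemilinearAut.degZeroSMulHom G (Pic0.degZeroSMulHom δ D))
          - Pic0.degZeroCorrespondence β α hβ hα hFI (SemilinearAut.degZeroSMulHom G D)
          + (p : ℤ) • D) := rfl
  rw [hfinal]
  exact pic0_mk_eq_zero_of_isDivOfG _ hy hEy

/-! ### The diamond commutes with the Galois action on `Pic0` -/

section Comm

variable {K F : Type*} [Field K] [Field F] [Algebra K F]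

/-- If `δ` and `g` commute on `F`, so do their inverses. -/
theorem algEquiv_inv_comm (δ : F ≃ₐ[K] F) (g : SemilinearAut K F)
    (h : ∀ y : F, δ (g • y) = g • δ y) (y : F) : δ⁻¹ (g⁻¹ • y) = g⁻¹ • δ⁻¹ y := by
  have h1 : δ (g • (δ⁻¹ (g⁻¹ • y))) = y := by
    rw [h]
    show g • δ (δ.symm (g⁻¹ • y)) = y
    rw [AlgEquiv.apply_symm_apply, smul_inv_smul]
  have h2 : δ (g • (g⁻¹ • δ⁻¹ y)) = y := by
    rw [smul_inv_smul]
    exact δ.apply_symm_apply y
  have h3 : g • (δ⁻¹ (g⁻¹ • y)) = g • (g⁻¹ • δ⁻¹ y) := δ.injective (h1.trans h2.symm)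
  exact MulAction.injective g h3

theorem place_smul_comm (δ : F ≃ₐ[K] F) (g : SemilinearAut K F)
    (h : ∀ y : F, δ (g • y) = g • δ y) (v : Place K F) : δ • (g • v) = g • (δ • v) := by
  apply Place.ext
  ext x
  rw [Place.smul_toValuationSubring, SemilinearAut.smul_toValuationSubring,
    SemilinearAut.smul_toValuationSubring, Place.smul_toValuationSubring,
    ValuationSubring.mem_pointwise_smul_iff_inv_smul_mem,
    ValuationSubring.mem_pointwise_smul_iff_inv_smul_mem,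
    ValuationSubring.mem_pointwise_smul_iff_inv_smul_mem,
    ValuationSubring.mem_pointwise_smul_iff_inv_smul_mem]
  have e : g⁻¹ • δ⁻¹ • x = δ⁻¹ • g⁻¹ • x := (algEquiv_inv_comm δ g h x).symm
  rw [e]

theorem divisor_smul_comm (δ : F ≃ₐ[K] F) (g : SemilinearAut K F)
    (h : ∀ y : F, δ (g • y) = g • δ y) (D : Divisor K F) : δ • (g • D) = g • (δ • D) := by
  ext w
  rw [Divisor.smul_apply, SemilinearAut.divisor_smul_apply, SemilinearAut.divisor_smul_apply,
    Divisor.smul_apply]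
  congr 1
  exact (place_smul_comm δ⁻¹ g⁻¹ (algEquiv_inv_comm δ g h) w).symm

theorem pic0_smul_comm (δ : F ≃ₐ[K] F) (g : SemilinearAut K F)
    (h : ∀ y : F, δ (g • y) = g • δ y) (x : Pic0 K F) : δ • (g • x) = g • (δ • x) := by
  obtain ⟨D, rfl⟩ := Pic0.mk_surjective x
  rw [SemilinearAut.pic0_smul_mk, Pic0.smul_mk, Pic0.smul_mk, SemilinearAut.pic0_smul_mk]
  exact congrArg Pic0.mk (Subtype.ext (divisor_smul_comm δ g h D))

end Comm

/-- A diamond commutes with the Galois action on `Pic0`. -/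
theorem DiamondG.smul_comm {δ : laurentBaseChange Qb F₀ ≃ₐ[Qb] laurentBaseChange Qb F₀}
    (hδ : DiamondG F₀ A Fk δ) (σ : Qb ≃ₐ[ℚ] Qb) (x : Pic0 Qb (laurentBaseChange Qb F₀)) :
    δ • (σ • x) = σ • (δ • x) := by
  rw [galois_smul_pic0_def, galois_smul_pic0_def]
  exact pic0_smul_comm δ (arithmeticGalois F₀ σ) (fun y => hδ.galois σ y) x

/-- The inverse of a diamond commutes with the Galois action on `Pic0`. -/
theorem DiamondG.inv_smul_comm {δ : laurentBaseChange Qb F₀ ≃ₐ[Qb] laurentBaseChange Qb F₀}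
    (hδ : DiamondG F₀ A Fk δ) (σ : Qb ≃ₐ[ℚ] Qb) (x : Pic0 Qb (laurentBaseChange Qb F₀)) :
    δ⁻¹ • (σ • x) = σ • (δ⁻¹ • x) := by
  have h := hδ.smul_comm σ (δ⁻¹ • x)
  rw [smul_inv_smul] at h
  rw [← h, inv_smul_smul]

/-- **Generic ESK-F with diamond, second form**: `σ² x - T_p (σ x) + p ⟨p⟩ x = 0` with
`T_p := T ∘ δ⁻¹` and `⟨p⟩ := δ⁻¹`. -/
theorem eskG_frob' {p : ℕ} (hp : p.Prime) {m : ℕ} (hm : m ≠ 0) (hA : A.LiesOverPrime p)
    (hcore : CoreG F₀ A Fk m) (hpgi : PGIG F₀ A Fk) (hst : StableG A Fk)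
    {F' : Type*} [Field F'] [Algebra Qb F'] [HasPrincipalDivisors Qb F']
    (α β : laurentBaseChange Qb F₀ →ₐ[Qb] F')
    (hα : α.toRingHom.IsIntegral) (hβ : β.toRingHom.IsIntegral)
    (hFI : FundamentalIdentityAlong Qb β hβ) (hfin : FiniteAlong Qb α)
    (hN : NormFormulaAlong Qb α hfin)
    (δ : laurentBaseChange Qb F₀ ≃ₐ[Qb] laurentBaseChange Qb F₀) (hδ : DiamondG F₀ A Fk δ)
    (hnid : haveI : NeZero p := ⟨hp.ne_zero⟩; NormIdG α β p δ) :
    ∀ σ : Qb ≃ₐ[ℚ] Qb, A.IsFrobeniusAt σ p →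
      ∀ x : Pic0 Qb (laurentBaseChange Qb F₀), (m : ℤ) • x = 0 →
        σ • σ • x - Pic0.correspondence β α hβ hα hFI hfin hN (δ⁻¹ • (σ • x))
          + (p : ℤ) • (δ⁻¹ • x) = 0 := by
  intro σ hσ x hx
  have hx' : (m : ℤ) • (δ⁻¹ • x) = 0 := by
    have h1 : δ⁻¹ • ((m : ℤ) • x) = (m : ℤ) • (δ⁻¹ • x) :=
      map_zsmul (DistribSMul.toAddMonoidHom (Pic0 Qb (laurentBaseChange Qb F₀)) δ⁻¹) m x
    rw [← h1, hx]
    exact map_zero (DistribSMul.toAddMonoidHom (Pic0 Qb (laurentBaseChange Qb F₀)) δ⁻¹)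
  have h := eskG_frob hp hm hA hcore hpgi hst α β hα hβ hFI hfin hN δ hδ hnid σ hσ
    (δ⁻¹ • x) hx'
  rw [smul_inv_smul, ← hδ.inv_smul_comm σ x] at h
  exact h

end Fermat.Agent.S48.H136
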