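/-
S48 / Tower A1 (helper136) — piece ESK1, part 3: the ADAPTER

    `rawES1_of_inputs : Core1Statement → PGI1Statement → HI1Statement → DiamondInt1Statement →
        NormId1Statement → Res.RawES1Statement true`

from the generic engine (`ESKG.lean`, `ESKGFrob.lean`) to the frozen shape of
`Fermat/Agent/S48/Res/Parts.lean`, for
`(F₀, F', F_k, δ) = (F1 M, ℚ̄·F1p M p, F1C k M, diamondAut (unitOf M p))`.

The five inputs (all for primes `p ∤ M` and valuation subrings `A ⊆ ℚ̄` above `p`, `k = A/𝔪`):

* `Core1Statement`       : the Kummer core `CoreG (F1 M) A (F1C k M) ℓ`, `ℓ ≠ p` prime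
                           (IGUSA1 / GoodModel for `F1C` + S18 Alg);
* `PGI1Statement`        : principal divisors of `ℚ̄·F1 M` are generated by divisors of integral series
                           (port of S37 PGI);
* `HI1Statement`         : `CorrInputs (beta1) (alpha1)` (FF-ALG + generic HI);
* `DiamondInt1Statement` : the diamond automorphism `diamondAut (unitOf M p)` preserves integral
                           series (FF-DIA + uniqueness of the Gauss valuation);
* `NormId1Statement`     : `Nm_α (β y) = V_p y · det (secMat p (δ_p y))` (NORMID1).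

PROVED here without hypotheses: `stableG_F1C` (`F1C k M` is stable under coefficientwise ring
endomorphisms), `diamondG_diamondAut_of_integral` (Galois-compatibility of the diamond).
-/
import Fermat.Agent.S48.H136.ESKGFrob
import Fermat.Agent.S48.Res.Parts

set_option autoImplicit false
set_option linter.style.haveILetI false

noncomputable section

namespace Fermat.Agent.S48.H136

open ModularCurve AlgebraicCurve HahnSeries IsLocalRing
open Fermat.Agent.S18 (Qb)
open Fermat.Agent.S48.F1 Fermat.Agent.S48.Res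

/-! ### The action of an algebra automorphism on `Pic0`, two incarnations -/

section OfAlgAut

variable {K F : Type*} [Field K] [Field F] [Algebra K F]

theorem place_ofAlgAut_smul (δ : F ≃ₐ[K] F) (v : Place K F) :
    SemilinearAut.ofAlgAut δ • v = δ • v := by
  apply Place.ext
  ext x
  rw [SemilinearAut.smul_toValuationSubring, Place.smul_toValuationSubring,
    ValuationSubring.mem_pointwise_smul_iff_inv_smul_mem,
    ValuationSubring.mem_pointwise_smul_iff_inv_smul_mem]
  exact Iff.rfl

theorem divisor_ofAlgAut_smul (δ : F ≃ₐ[K] F) (D : Divisor K F) :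
    SemilinearAut.ofAlgAut δ • D = δ • D := by
  ext w
  rw [SemilinearAut.divisor_smul_apply, Divisor.smul_apply]
  have h := place_ofAlgAut_smul δ⁻¹ w
  rw [map_inv] at h
  rw [h]

theorem pic0_ofAlgAut_smul (δ : F ≃ₐ[K] F) (x : Pic0 K F) :
    SemilinearAut.ofAlgAut δ • x = δ • x := by
  obtain ⟨D, rfl⟩ := Pic0.mk_surjective x
  rw [SemilinearAut.pic0_smul_mk, Pic0.smul_mk]
  exact congrArg Pic0.mk (Subtype.ext (divisor_ofAlgAut_smul δ D))

end OfAlgAut

/-! ### `F1C k M` is stable under coefficientwise endomorphisms -/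

theorem coeffMap_mem_F1C {k : Type*} [Field k] (M : ℕ) (φ : k →+* k) {x : LaurentSeries k}
    (hx : x ∈ F1C k M) : coeffMap φ x ∈ F1C k M := by
  unfold F1C at hx
  induction hx using IntermediateField.adjoin_induction with
  | mem y hy =>
      rcases hy with hy | hy
      · obtain ⟨d, hne, hd, rfl⟩ := hy
        haveI := hne
        rw [Fermat.Agent.S37.H400.coeffMap_qExpand_h400, coeffMap_jqModC]
        exact IntermediateField.subset_adjoin k _ (Or.inl (mem_divisorExpansionsC k M hd))
      · obtain ⟨a, ha, rfl⟩ := hy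
        rw [coeffMap_divGenC]
        exact divGenC_mem_F1C k M ha
  | algebraMap c =>
      rw [coeffMap_algebraMap]
      exact (F1C k M).algebraMap_mem _
  | add y z _ _ hy hz => rw [map_add]; exact add_mem hy hz
  | inv y _ hy => rw [map_inv₀]; exact inv_mem hy
  | mul y z _ _ hy hz => rw [map_mul]; exact mul_mem hy hz

theorem stableG_F1C (A : ValuationSubring Qb) (M : ℕ) :
    StableG A (F1C (ResidueField A) M) :=
  fun φ _ hx => coeffMap_mem_F1C M φ hx

/-! ### The inputs -/

/-- **CORE1**: the Kummer core for `F1 M` at every place `A` above `p ∤ M ℓ`, modulus `ℓ`. -/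
def Core1Statement : Prop :=
  ∀ (M ℓ p : ℕ), M ≠ 0 → ℓ.Prime → p.Prime → ¬ p ∣ M * ℓ →
    ∀ A : ValuationSubring Qb, A.LiesOverPrime p →
      CoreG (F1 M) A (F1C (ResidueField A) M) ℓ

/-- **PGI1**: principal divisors of `ℚ̄ · F1 M` are generated by divisors of integral series. -/
def PGI1Statement : Prop :=
  ∀ (M p : ℕ), M ≠ 0 → p.Prime → ¬ p ∣ M →
    ∀ A : ValuationSubring Qb, A.LiesOverPrime p → PGIG (F1 M) A (F1C (ResidueField A) M)

/-- **HI1**: the Hecke inputs for `α = alpha1`, `β = beta1` at level `(M; p)`. -/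
def HI1Statement : Prop :=
  ∀ (M p : ℕ) [NeZero p], M ≠ 0 → p.Prime → ¬ p ∣ M →
    CorrInputs (beta1 Qb M p) (alpha1 Qb M p)

/-- **DIA-INT**: the diamond automorphism `δ_p` preserves integral series. -/
def DiamondInt1Statement : Prop :=
  ∀ (M p : ℕ), M ≠ 0 → p.Prime → ¬ p ∣ M →
    ∀ A : ValuationSubring Qb, A.LiesOverPrime p →
      ∀ (U : LaurentSeries A) (hU : IsIntG (F1 M) A (F1C (ResidueField A) M) U),
        ∃ (W : LaurentSeries A) (hW : IsIntG (F1 M) A (F1C (ResidueField A) M) W),
          toFG hW = diamondAut Qb M (unitOf M p) (toFG hU)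

/-- **NORMID1**: `Nm_α (β y) = V_p y · det (secMat p (δ_p y))`. -/
def NormId1Statement : Prop :=
  ∀ (M p : ℕ) [NeZero p], M ≠ 0 → p.Prime → ¬ p ∣ M →
    NormIdG (alpha1 Qb M p) (beta1 Qb M p) p (diamondAut Qb M (unitOf M p))

/-! ### The diamond datum -/

/-- The diamond automorphism commutes with the coefficientwise Galois action. -/
theorem diamondAut_galois (M : ℕ) (d : (ZMod M)ˣ) (σ : Qb ≃ₐ[ℚ] Qb) (y : F1Bar M) :
    diamondAut Qb M d (arithmeticGalois (F1 M) σ • y)
      = arithmeticGalois (F1 M) σ • diamondAut Qb M d y := by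
  have h := congrArg (fun g : SemilinearAut Qb (F1Bar M) => g • y)
    (arithmeticGalois_mul_diamond M d σ)
  simp only [mul_smul, SemilinearAut.ofAlgAut_smul] at h
  exact h.symm

theorem diamondG_diamondAut_of_integral (M : ℕ) (d : (ZMod M)ˣ) (A : ValuationSubring Qb)
    (hint : ∀ (U : LaurentSeries A) (hU : IsIntG (F1 M) A (F1C (ResidueField A) M) U),
      ∃ (W : LaurentSeries A) (hW : IsIntG (F1 M) A (F1C (ResidueField A) M) W),
        toFG hW = diamondAut Qb M d (toFG hU)) :
    DiamondG (F1 M) A (F1C (ResidueField A) M) (diamondAut Qb M d) :=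
  ⟨fun σ y => diamondAut_galois M d σ y, hint⟩

/-! ### The adapter -/

/-- **RawES1 from its five inputs** (exact shape of `Res/Parts.lean`, orientation `s = true`). -/
theorem rawES1_of_inputs (hcore : Core1Statement) (hpgi : PGI1Statement) (hHI : HI1Statement)
    (hdia : DiamondInt1Statement) (hnid : NormId1Statement) : RawES1Statement true := by
  intro M ℓ p hM hℓ hp hpMℓ A hA
  have hpM : ¬ p ∣ M := fun h => hpMℓ (Dvd.dvd.mul_right h ℓ)
  haveI : NeZero p := ⟨hp.ne_zero⟩
  have hC := hcore M ℓ p hM hℓ hp hpMℓ A hA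
  have hP := hpgi M p hM hp hpM A hA
  have hst := stableG_F1C A M
  refine ⟨eskG_inertia hℓ.ne_zero hC hP hst, ?_⟩
  intro σ hσ x hx
  obtain ⟨hβ, hα, hPD, hfin, hFI, hN⟩ := hHI M p hM hp hpM
  haveI := hPD
  have hδ := diamondG_diamondAut_of_integral M (unitOf M p) A (hdia M p hM hp hpM A hA)
  have h := eskG_frob hp hℓ.ne_zero hA hC hP hst (alpha1 Qb M p) (beta1 Qb M p) hα hβ hFI hfin hN
    (diamondAut Qb M (unitOf M p)) hδ (hnid M p hM hp hpM) σ hσ x hx
  have hT : hecke1 M p = (Pic0.correspondence (beta1 Qb M p) (alpha1 Qb M p) hβ hα hFI hfin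
      hN).toIntLinearMap := by
    rw [hecke1_eq, heckeL, corrOp_eq (beta1 Qb M p) (alpha1 Qb M p) hβ hα hFI hfin hN]
  have hD : diamondS true M p (σ • σ • x)
      = σ • σ • (diamondAut Qb M (unitOf M p) • x) := by
    show diamond1 M (unitOf M p) (σ • σ • x) = _
    rw [galois_smul_diamond1, galois_smul_diamond1, diamond1_apply, pic0_ofAlgAut_smul]
  rw [hD, hT]
  exact h

end Fermat.Agent.S48.H136
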