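/-
S48 / Tower A1 (helper136) — piece ESK1, part 4: GENERIC raw Eichler–Shimura with diamond,
VERSION 2 (no integrality hypothesis on the diamond).

Why a second version.  `DiamondG.integral` of `ESKGFrob.lean` asks that the diamond automorphism
map series with integral `q`-expansion (at `∞`) to series with integral `q`-expansion.  For
`X₁(M)` this is FALSE as soon as `d ≠ ±1`: `δ_d` moves the cusp `∞`, and a function with integral
expansion at `∞` may have a pole through the reduction of the cusp `δ_d ∞` (`u = 1/(p + t)`,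
`t` a local parameter at `δ_d ∞`).  What is TRUE (and is exactly what the Gauss-lemma proof of PGI
constructs, cf. `S37/H700/GaussMain.lean`, `pgi`) is

  `ValG F₀ A Fk` : every `f ≠ 0` in `F = ℚ̄ · F₀` is `c · u₁ / u₂`, `c ∈ ℚ̄ˣ`, `u₁ u₂` integral series
                   (elements of `A((q))` lying in `F` with nonzero reduction in `F_k`).

`eskV_inertia` : `CoreG + ValG + StableG ⟹` inertia at `A` acts trivially on `J[m]`;
`eskV_frob`    : `CoreG + ValG + StableG + HeckeInputs + NormIdG + (δ commutes with Galois) ⟹`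
                 `σ² (δ x) - T (σ x) + p x = 0` on `J[m]` for every Frobenius element `σ` at `A`.
`eskV_frob'`   : the same in the form `σ² x - T (δ⁻¹ σ x) + p δ⁻¹ x = 0`.

Proof of `eskV_frob`: `m D = div f`, `f = c u₁/u₂`, `δ f = c' w₁/w₂` (`ValG` twice);
`R := σ²(δ f) · f^p / Nm_α(β σ f)` has divisor `m E`, `E` the divisor of the relation; `ValG` for
`R`: `R = c₃ v₁/v₂`.  NORM-ID and the multiplicativity of `V_p`, `det secMat` give the identity of
`q`-series `R · k₁ · X₂ = k₂ · X₁` with constants `k₁ k₂` and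
`X₁ = σ²W₁ · U₁^p · kron2 (σU₂) (σW₂)`, `X₂ = σ²W₂ · U₂^p · kron2 (σU₁) (σW₁)` in `A((q))`, which
have the SAME reduction.  Hence `v₁/v₂` is a unit constant times a series with reduction `1`, and
the Kummer core `CoreG` applies to `(a v₁, v₂)`.
-/
import Fermat.Agent.S48.H136.ESKGFrob

set_option autoImplicit false
set_option linter.style.haveILetI false

noncomputable section

namespace Fermat.Agent.S48.H136

open ModularCurve AlgebraicCurve HahnSeries IsLocalRing
open Fermat.Agent.S18 (Qb)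
open Fermat.Agent.S29.H222 (IsDivOf decA decK galA)
open Fermat.Agent.S37.H400 (secMat)

/-! ### Constants and the formal Kronecker norm -/

section Const

variable {R : Type*} [CommRing R]

theorem single_zero_pow (c : R) (n : ℕ) :
    (HahnSeries.single (0 : ℤ) c : LaurentSeries R) ^ n = HahnSeries.single 0 (c ^ n) :=
  (map_pow (HahnSeries.C : R →+* LaurentSeries R) c n).symm

theorem single_zero_mul_single_zero (c d : R) :
    (HahnSeries.single (0 : ℤ) c : LaurentSeries R) * HahnSeries.single 0 d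
      = HahnSeries.single 0 (c * d) :=
  (map_mul (HahnSeries.C : R →+* LaurentSeries R) c d).symm

theorem single_zero_one : (HahnSeries.single (0 : ℤ) (1 : R) : LaurentSeries R) = 1 := rfl

theorem det_secMat_single_zero (p : ℕ) [NeZero p] (c : R) :
    (secMat p (HahnSeries.single (0 : ℤ) c : LaurentSeries R)).det
      = HahnSeries.single 0 (c ^ p) := by
  have h := Fermat.Agent.S37.H400.secMat_qExpand p (HahnSeries.single (0 : ℤ) c : LaurentSeries R)
  rw [qExpand_single, mul_zero] at h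
  rw [h, Matrix.scalar_apply, Matrix.det_diagonal, Finset.prod_const, Finset.card_univ,
    Fintype.card_fin, single_zero_pow]

theorem kron2_mul (p : ℕ) [NeZero p] (f f' g g' : LaurentSeries R) :
    kron2 p (f * f') (g * g') = kron2 p f g * kron2 p f' g' := by
  rw [kron2, kron2, kron2, map_mul, Fermat.Agent.S37.H400.secMat_mul, Matrix.det_mul]
  ring

theorem kron2_single_zero (p : ℕ) [NeZero p] (c c' : R) :
    kron2 p (HahnSeries.single (0 : ℤ) c : LaurentSeries R) (HahnSeries.single 0 c')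
      = HahnSeries.single 0 (c * c' ^ p) := by
  rw [kron2, qExpand_single, mul_zero, det_secMat_single_zero, single_zero_mul_single_zero]

end Const

/-! ### Two algebraic identities -/

section Identities

variable {L : Type*} [Field L]

/-- `x = C y₁/y₂`, `y₁ = C₁ a₁/b₁`, `y₂ = C₂ a₂/b₂` ⟹ `x = (C C₁/C₂) (a₁ b₂)/(a₂ b₁)`. -/
theorem eskV_quot {x y₁ y₂ a₁ b₁ a₂ b₂ C C₁ C₂ C' : L} (hC₂ : C₂ ≠ 0) (hy₂ : y₂ ≠ 0)
    (E0 : C' * C₂ = C * C₁) (E1 : x * y₂ = C * y₁) (E2 : y₁ * b₁ = C₁ * a₁)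
    (E3 : y₂ * b₂ = C₂ * a₂) : x * (a₂ * b₁) = C' * (a₁ * b₂) := by
  apply mul_right_cancel₀ (mul_ne_zero hC₂ hy₂)
  linear_combination (-(x * y₂ * b₁)) * E3 + (b₁ * y₂ * b₂) * E1 + (C * y₂ * b₂) * E2
    - (a₁ * b₂ * y₂) * E0

/-- The identity of `q`-series behind `eskV_frob`. -/
theorem eskV_key {r P Q S T Vu₁ Vu₂ Vc Nw₁ Nw₂ Nc gw₁ gw₂ gc u₁p u₂p cp : L}
    (e5 : r * (P * Q) = S * T) (e8 : P * Vu₂ = Vc * Vu₁) (e7 : Q * Nw₂ = Nc * Nw₁)
    (e6 : S * gw₂ = gc * gw₁) (e9 : T * u₂p = cp * u₁p) :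
    r * (Vc * Nc) * (gw₂ * u₂p * (Vu₁ * Nw₁)) = (gc * cp) * (gw₁ * u₁p * (Vu₂ * Nw₂)) := by
  linear_combination (-(r * (Nc * Nw₁) * gw₂ * u₂p)) * e8 - (r * P * Vu₂ * gw₂ * u₂p) * e7
    + (Vu₂ * Nw₂ * gw₂ * u₂p) * e5 + (T * Vu₂ * Nw₂ * u₂p) * e6 + (gc * gw₁ * Vu₂ * Nw₂) * e9

end Identities

variable {F₀ : IntermediateField ℚ (LaurentSeries ℚ)} {A : ValuationSubring Qb}
  {Fk : IntermediateField (ResidueField A) (LaurentSeries (ResidueField A))}

/-! ### Unit constants -/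

/-- If `κ · P = Q` with `P, Q ∈ A((q))` of nonzero reduction, then `κ` is a unit of `A`. -/
theorem exists_unit_of_const_mul_eq {P Q : LaurentSeries A}
    (hP : coeffMap (residue A) P ≠ 0) (hQ : coeffMap (residue A) Q ≠ 0) {κ : Qb}
    (h : HahnSeries.single (0 : ℤ) κ * coeffMap A.subtype P = coeffMap A.subtype Q) :
    ∃ a : A, IsUnit a ∧ (a : Qb) = κ := by
  have hκ0 : κ ≠ 0 := by
    rintro rfl
    rw [HahnSeries.single_eq_zero, zero_mul] at h
    have hQ0 : Q = 0 :=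
      Fermat.Agent.S29.H222.esk_coeffMap_subtype_injective (by rw [← h, map_zero])
    exact hQ (by rw [hQ0, map_zero])
  have hunit : ∀ (a : A) (P' Q' : LaurentSeries A), coeffMap (residue A) Q' ≠ 0 →
      HahnSeries.single (0 : ℤ) (a : Qb) * coeffMap A.subtype P' = coeffMap A.subtype Q' →
      IsUnit a := by
    intro a P' Q' hQ' h'
    have e : HahnSeries.single (0 : ℤ) a * P' = Q' := by
      apply Fermat.Agent.S29.H222.esk_coeffMap_subtype_injective
      rw [map_mul, coeffMap_single]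
      exact h'
    by_contra hna
    have hres : residue A a = 0 := (IsLocalRing.residue_eq_zero_iff a).mpr hna
    apply hQ'
    rw [← e, map_mul, coeffMap_single, hres, HahnSeries.single_eq_zero, zero_mul]
  rcases A.mem_or_inv_mem κ with hκ | hκ
  · exact ⟨⟨κ, hκ⟩, hunit ⟨κ, hκ⟩ P Q hQ h, rfl⟩
  · have h' : HahnSeries.single (0 : ℤ) ((⟨κ⁻¹, hκ⟩ : A) : Qb) * coeffMap A.subtype Q
        = coeffMap A.subtype P := by
      show HahnSeries.single (0 : ℤ) κ⁻¹ * coeffMap A.subtype Q = coeffMap A.subtype P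
      rw [← h, ← mul_assoc, single_zero_mul_single_zero, inv_mul_cancel₀ hκ0, single_zero_one,
        one_mul]
    have hu := hunit ⟨κ⁻¹, hκ⟩ Q P hP h'
    refine ⟨((hu.unit⁻¹ : Aˣ) : A), Units.isUnit _, ?_⟩
    have h1 : ((hu.unit⁻¹ : Aˣ) : A) * (⟨κ⁻¹, hκ⟩ : A) = 1 := by
      have := hu.unit.inv_mul
      simpa using this
    have h2 : (((hu.unit⁻¹ : Aˣ) : A) : Qb) * κ⁻¹ = 1 := congrArg Subtype.val h1
    exact (eq_inv_of_mul_eq_one_left h2).trans (inv_inv κ)

/-- Multiplying an integral series by a unit constant. -/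
theorem isIntG_const_mul {a : A} (ha : IsUnit a) {U : LaurentSeries A}
    (hU : IsIntG F₀ A Fk U) : IsIntG F₀ A Fk (HahnSeries.single (0 : ℤ) a * U) := by
  refine ⟨?_, ?_, ?_⟩
  · rw [map_mul, coeffMap_single, ← algebraMap_laurentSeries_eq_single]
    exact mul_mem ((laurentBaseChange Qb F₀).algebraMap_mem _) hU.1
  · rw [map_mul, coeffMap_single, ← algebraMap_laurentSeries_eq_single]
    exact mul_mem (Fk.algebraMap_mem _) hU.2.1
  · rw [map_mul, coeffMap_single]
    refine mul_ne_zero ?_ hU.2.2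
    rw [Ne, HahnSeries.single_eq_zero_iff]
    intro h0
    exact ((IsLocalRing.residue_eq_zero_iff a).mp h0) ha

theorem toFG_const_mul {a : A} (ha : IsUnit a) {U : LaurentSeries A}
    (hU : IsIntG F₀ A Fk U) :
    toFG (isIntG_const_mul ha hU)
      = algebraMap Qb (laurentBaseChange Qb F₀) (a : Qb) * toFG hU := by
  apply Subtype.ext
  show coeffMap A.subtype (HahnSeries.single (0 : ℤ) a * U)
    = algebraMap Qb (LaurentSeries Qb) (a : Qb) * coeffMap A.subtype U
  rw [map_mul, coeffMap_single, algebraMap_laurentSeries_eq_single]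
  rfl

/-! ### The hypothesis `ValG` -/

section Val

variable (F₀ A Fk)

/-- **VAL**: every nonzero element of `F = ℚ̄ · F₀` is a nonzero constant times the quotient of
two integral series. -/
def ValG : Prop :=
  ∀ f : laurentBaseChange Qb F₀, f ≠ 0 →
    ∃ (c : Qb) (U₁ U₂ : LaurentSeries A) (h₁ : IsIntG F₀ A Fk U₁) (h₂ : IsIntG F₀ A Fk U₂),
      c ≠ 0 ∧ f * toFG h₂ = algebraMap Qb (laurentBaseChange Qb F₀) c * toFG h₁

end Val

/-- `ValG` for a function and its image under an automorphism, simultaneously. -/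
theorem ValG.pair (hval : ValG F₀ A Fk)
    (δ : laurentBaseChange Qb F₀ ≃ₐ[Qb] laurentBaseChange Qb F₀)
    (f : laurentBaseChange Qb F₀) (hf : f ≠ 0) :
    ∃ (c c' : Qb) (U₁ U₂ W₁ W₂ : LaurentSeries A) (h₁ : IsIntG F₀ A Fk U₁)
      (h₂ : IsIntG F₀ A Fk U₂) (hW₁ : IsIntG F₀ A Fk W₁) (hW₂ : IsIntG F₀ A Fk W₂),
      c ≠ 0 ∧ c' ≠ 0 ∧
      f * toFG h₂ = algebraMap Qb (laurentBaseChange Qb F₀) c * toFG h₁ ∧
      δ f * toFG hW₂ = algebraMap Qb (laurentBaseChange Qb F₀) c' * toFG hW₁ := by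
  obtain ⟨c, U₁, U₂, h₁, h₂, hc, hfu⟩ := hval f hf
  have hδ₁ : δ (toFG h₁) ≠ 0 := (map_ne_zero δ).mpr (toFG_ne_zero h₁)
  have hδ₂ : δ (toFG h₂) ≠ 0 := (map_ne_zero δ).mpr (toFG_ne_zero h₂)
  obtain ⟨c₁, A₁, B₁, hA₁, hB₁, hc₁, hu₁⟩ := hval _ hδ₁
  obtain ⟨c₂, A₂, B₂, hA₂, hB₂, hc₂, hu₂⟩ := hval _ hδ₂
  refine ⟨c, c * c₁ / c₂, U₁, U₂, A₁ * B₂, A₂ * B₁, h₁, h₂, isIntG_mul hA₁ hB₂,
    isIntG_mul hA₂ hB₁, hc, div_ne_zero (mul_ne_zero hc hc₁) hc₂, hfu, ?_⟩
  rw [toFG_mul hA₂ hB₁, toFG_mul hA₁ hB₂]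
  have E1 : δ f * δ (toFG h₂) = algebraMap Qb (laurentBaseChange Qb F₀) c * δ (toFG h₁) := by
    rw [← map_mul, hfu, map_mul, AlgEquiv.commutes]
  have E0 : algebraMap Qb (laurentBaseChange Qb F₀) (c * c₁ / c₂)
      * algebraMap Qb (laurentBaseChange Qb F₀) c₂
      = algebraMap Qb (laurentBaseChange Qb F₀) c
        * algebraMap Qb (laurentBaseChange Qb F₀) c₁ := by
    rw [← map_mul, ← map_mul, div_mul_cancel₀ _ hc₂]
  exact eskV_quot ((map_ne_zero _).mpr hc₂) hδ₂ E0 E1 hu₁ hu₂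

/-! ### Coercions -/

theorem coe_algebraMap_lbc (c : Qb) :
    ((algebraMap Qb (laurentBaseChange Qb F₀) c : laurentBaseChange Qb F₀) : LaurentSeries Qb)
      = HahnSeries.single 0 c := by
  rw [← algebraMap_laurentSeries_eq_single]
  rfl

/-! ### ESK-U from `ValG` -/

/-- **Generic ESK-U, version 2.**  Inertia at `A` acts trivially on the `m`-torsion of
`Pic0 ℚ̄ (ℚ̄ · F₀)`. -/
theorem eskV_inertia {m : ℕ} (hm : m ≠ 0) (hcore : CoreG F₀ A Fk m) (hval : ValG F₀ A Fk)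
    (hst : StableG A Fk) :
    ∀ τ ∈ A.inertiaSubgroupIn ℚ, ∀ x : Pic0 Qb (laurentBaseChange Qb F₀),
      (m : ℤ) • x = 0 → τ • x = x := by
  intro τ hτ x hx
  obtain ⟨g, hg, rfl⟩ := hτ
  obtain ⟨D, rfl⟩ := Pic0.mk_surjective x
  obtain ⟨f, hf0, hfD⟩ := smul_mem_principal_of_torsionG D hx
  obtain ⟨c, U₁, U₂, h₁, h₂, hc, hfu⟩ := hval f hf0
  set G := arithmeticGalois F₀
    (((A.decompositionSubgroup ℚ).subtype g : Qb ≃ₐ[ℚ] Qb)) with hG
  have hV₁ : IsIntG F₀ A Fk (galA g U₁ * U₂) := isIntG_mul (isIntG_galA hst g h₁) h₂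
  have hV₂ : IsIntG F₀ A Fk (U₁ * galA g U₂) := isIntG_mul h₁ (isIntG_galA hst g h₂)
  have hred : coeffMap (residue A) (galA g U₁ * U₂) = coeffMap (residue A) (U₁ * galA g U₂) := by
    rw [map_mul, map_mul, Fermat.Agent.S29.H222.coeffMap_residue_galA,
      Fermat.Agent.S29.H222.coeffMap_residue_galA,
      Fermat.Agent.S29.H222.coeffMap_decK_of_mem_inertia hg,
      Fermat.Agent.S29.H222.coeffMap_decK_of_mem_inertia hg]
  -- orders
  have hu₁0 := toFG_ne_zero h₁
  have hu₂0 := toFG_ne_zero h₂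
  have hcF : algebraMap Qb (laurentBaseChange Qb F₀) c ≠ 0 := (map_ne_zero _).mpr hc
  have hordf : ∀ v : Place Qb (laurentBaseChange Qb F₀),
      v.ord f = v.ord (toFG h₁) - v.ord (toFG h₂) := by
    intro v
    have h := congrArg v.ord hfu
    rw [v.ord_mul hf0 hu₂0, v.ord_mul hcF hu₁0,
      Fermat.Agent.S29.H222.esk_ord_algebraMap v hc] at h
    linarith
  have hordG : ∀ (y : laurentBaseChange Qb F₀) (v : Place Qb (laurentBaseChange Qb F₀)),
      v.ord (G • y) = (G⁻¹ • v).ord y := by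
    intro y v
    have h := SemilinearAut.ord_smul G (G⁻¹ • v) y
    rw [smul_inv_smul] at h
    exact h
  have hkey : ∀ v : Place Qb (laurentBaseChange Qb F₀),
      (m : ℤ) * (G • (D : Divisor Qb (laurentBaseChange Qb F₀)) - D) v
        = v.ord (toFG hV₁) - v.ord (toFG hV₂) := by
    intro v
    have e1 := hfD v
    have e2 := hfD (G⁻¹ • v)
    rw [Finsupp.smul_apply, smul_eq_mul] at e1 e2
    have hg₁ : toFG (isIntG_galA hst g h₁) = G • toFG h₁ := toFG_galA hst g h₁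
    have hg₂ : toFG (isIntG_galA hst g h₂) = G • toFG h₂ := toFG_galA hst g h₂
    rw [toFG_mul (isIntG_galA hst g h₁) h₂, toFG_mul h₁ (isIntG_galA hst g h₂),
      v.ord_mul (toFG_ne_zero _) hu₂0, v.ord_mul hu₁0 (toFG_ne_zero _),
      hg₁, hg₂, hordG, hordG]
    have e3 := hordf v
    have e4 := hordf (G⁻¹ • v)
    simp only [Finsupp.sub_apply, SemilinearAut.divisor_smul_apply]
    linear_combination e2 - e1 + e4 - e3
  have hord : ∀ v : Place Qb (laurentBaseChange Qb F₀),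
      (m : ℤ) ∣ v.ord (toFG hV₁) - v.ord (toFG hV₂) := fun v => ⟨_, (hkey v).symm⟩
  obtain ⟨c', y, hc', hy, hcy⟩ := hcore _ _ hV₁ hV₂ hred hord
  have hE := Fermat.Agent.S29.H222.isDivOf_of_eq_const_mul_pow hm hc' hy (toFG_ne_zero hV₂) hcy
    hkey
  show (((A.decompositionSubgroup ℚ).subtype g : Qb ≃ₐ[ℚ] Qb))
      • (Pic0.mk D : Pic0 Qb (laurentBaseChange Qb F₀)) = Pic0.mk D
  rw [galois_smul_pic0_def, SemilinearAut.pic0_smul_mk]
  exact pic0_mk_eq_of_isDivOfG D _ hy hE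

/-! ### ESK-F from `ValG` -/

section FrobAux

theorem kron2_ne_zero {K : Type*} [Field K] (p : ℕ) [NeZero p] {f g : LaurentSeries K}
    (hf : f ≠ 0) (hg : g ≠ 0) : kron2 p f g ≠ 0 := by
  have h := kron2_mul p f f⁻¹ g g⁻¹
  rw [mul_inv_cancel₀ hf, mul_inv_cancel₀ hg] at h
  have h1 : kron2 p (1 : LaurentSeries K) 1 = 1 := by
    rw [kron2, map_one, Fermat.Agent.S37.H400.secMat_one, Matrix.det_one, mul_one]
  rw [h1] at h
  intro h0
  rw [h0, zero_mul] at h
  exact one_ne_zero h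

variable {p : ℕ} [Fact p.Prime] [NeZero p] [CharP (ResidueField A) p]

/-- The two series `X₁`, `X₂` have the same reduction. -/
theorem coeffMap_residue_eskX {g : A.decompositionSubgroup ℚ}
    (hgk : decK g = frobenius (ResidueField A) p) (U₁ U₂ W₁ W₂ : LaurentSeries A) :
    coeffMap (residue A) (galA g (galA g W₁) * U₁ ^ p * kron2 p (galA g U₂) (galA g W₂))
      = coeffMap (residue A)
          (galA g (galA g W₂) * U₂ ^ p * kron2 p (galA g U₁) (galA g W₁)) := by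
  simp only [map_mul, map_pow, Fermat.Agent.S29.H222.coeffMap_residue_galA,
    coeffMap_residue_kron2_galA hgk]
  ring

theorem coeffMap_residue_eskX_ne_zero {g : A.decompositionSubgroup ℚ}
    (hgk : decK g = frobenius (ResidueField A) p) {U₁ U₂ W₁ W₂ : LaurentSeries A}
    (hU₁ : coeffMap (residue A) U₁ ≠ 0) (hU₂ : coeffMap (residue A) U₂ ≠ 0)
    (hW₁ : coeffMap (residue A) W₁ ≠ 0) (hW₂ : coeffMap (residue A) W₂ ≠ 0) :
    coeffMap (residue A) (galA g (galA g W₁) * U₁ ^ p * kron2 p (galA g U₂) (galA g W₂))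
      ≠ 0 := by
  have hinj : ∀ {x : LaurentSeries (ResidueField A)}, x ≠ 0 → coeffMap (decK g) x ≠ 0 :=
    fun hx => Fermat.Agent.S29.H222.coeffMap_ne_zero_of_injective _
      (Fermat.Agent.S29.H222.decK_injective g) hx
  rw [map_mul, map_mul, map_pow, Fermat.Agent.S29.H222.coeffMap_residue_galA,
    Fermat.Agent.S29.H222.coeffMap_residue_galA, coeffMap_residue_kron2_galA hgk]
  exact mul_ne_zero (mul_ne_zero (hinj (hinj hW₁)) (pow_ne_zero p hU₁))
    (mul_ne_zero (pow_ne_zero p hU₂) (hinj (hinj hW₂)))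

omit [Fact p.Prime] [CharP (ResidueField A) p] in
/-- The image of `X₁` in `ℚ̄((q))`. -/
theorem coeffMap_subtype_eskX (g : A.decompositionSubgroup ℚ) (U₁ U₂ W₁ W₂ : LaurentSeries A) :
    coeffMap A.subtype (galA g (galA g W₁) * U₁ ^ p * kron2 p (galA g U₂) (galA g W₂))
      = coeffMap (((g : Qb ≃ₐ[ℚ] Qb)) : Qb →+* Qb)
            (coeffMap (((g : Qb ≃ₐ[ℚ] Qb)) : Qb →+* Qb) (coeffMap A.subtype W₁))
          * coeffMap A.subtype U₁ ^ p
          * (qExpand Qb p (coeffMap (((g : Qb ≃ₐ[ℚ] Qb)) : Qb →+* Qb) (coeffMap A.subtype U₂))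
            * (secMat p
                (coeffMap (((g : Qb ≃ₐ[ℚ] Qb)) : Qb →+* Qb) (coeffMap A.subtype W₂))).det) := by
  rw [map_mul, map_mul, map_pow, coeffMap_kron2,
    Fermat.Agent.S29.H222.coeffMap_subtype_galA, Fermat.Agent.S29.H222.coeffMap_subtype_galA,
    Fermat.Agent.S29.H222.coeffMap_subtype_galA, Fermat.Agent.S29.H222.coeffMap_subtype_galA]
  rfl

end FrobAux

/-- **Generic ESK-F with diamond, version 2.**  Every Frobenius element `σ` at `A` satisfies
`σ² (δ x) - T (σ x) + p x = 0` on the `m`-torsion of `Pic0 ℚ̄ (ℚ̄ · F₀)`.  No integrality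
hypothesis on `δ`. -/
theorem eskV_frob {p : ℕ} (hp : p.Prime) {m : ℕ} (hm : m ≠ 0) (hA : A.LiesOverPrime p)
    (hcore : CoreG F₀ A Fk m) (hval : ValG F₀ A Fk) (hst : StableG A Fk)
    {F' : Type*} [Field F'] [Algebra Qb F'] [HasPrincipalDivisors Qb F']
    (α β : laurentBaseChange Qb F₀ →ₐ[Qb] F')
    (hα : α.toRingHom.IsIntegral) (hβ : β.toRingHom.IsIntegral)
    (hFI : FundamentalIdentityAlong Qb β hβ) (hfin : FiniteAlong Qb α)
    (hN : NormFormulaAlong Qb α hfin)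
    (δ : laurentBaseChange Qb F₀ ≃ₐ[Qb] laurentBaseChange Qb F₀)
    (hgal : ∀ (σ : Qb ≃ₐ[ℚ] Qb) (y : laurentBaseChange Qb F₀),
      δ (arithmeticGalois F₀ σ • y) = arithmeticGalois F₀ σ • δ y)
    (hnid : haveI : NeZero p := ⟨hp.ne_zero⟩; NormIdG α β p δ) :
    ∀ σ : Qb ≃ₐ[ℚ] Qb, A.IsFrobeniusAt σ p →
      ∀ x : Pic0 Qb (laurentBaseChange Qb F₀), (m : ℤ) • x = 0 →
        σ • σ • (δ • x) - Pic0.correspondence β α hβ hα hFI hfin hN (σ • x) + (p : ℤ) • x = 0 := by
  intro σ hσ x hx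
  haveI : NeZero p := ⟨hp.ne_zero⟩
  haveI : Fact p.Prime := ⟨hp⟩
  haveI : CharP (ResidueField A) p :=
    Fermat.Agent.S29.H222.charP_residueField_of_liesOver hp hA
  obtain ⟨hdec, hfrob⟩ := hσ
  set g : A.decompositionSubgroup ℚ := ⟨σ, hdec⟩ with hg
  have hgk : decK g = frobenius (ResidueField A) p := RingHom.ext fun x => hfrob x
  obtain ⟨D, rfl⟩ := Pic0.mk_surjective x
  obtain ⟨f, hf0, hfD⟩ := smul_mem_principal_of_torsionG D hx
  obtain ⟨c, c', U₁, U₂, W₁, W₂, h₁, h₂, hW₁, hW₂, hc, hc', hfu, hδw⟩ := hval.pair δ f hf0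
  set G := arithmeticGalois F₀ σ with hG
  -- nonvanishing
  have hδf0 : δ f ≠ 0 := (map_ne_zero δ).mpr hf0
  have hGf0 : G • f ≠ 0 := (smul_ne_zero_iff_ne G).mpr hf0
  have hGGδ0 : G • G • δ f ≠ 0 := (smul_ne_zero_iff_ne G).mpr ((smul_ne_zero_iff_ne G).mpr hδf0)
  have hcoe0 : ∀ {y : laurentBaseChange Qb F₀}, y ≠ 0 → (y : LaurentSeries Qb) ≠ 0 :=
    fun hy h => hy (Subtype.ext h)
  -- the norm
  have hNmL : ((normG α β (G • f) : laurentBaseChange Qb F₀) : LaurentSeries Qb)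
      = kron2 p ((G • f : laurentBaseChange Qb F₀) : LaurentSeries Qb)
          ((G • δ f : laurentBaseChange Qb F₀) : LaurentSeries Qb) := by
    have h := hnid (G • f)
    rw [hgal σ f] at h
    exact h
  have hNm0 : normG α β (G • f) ≠ 0 := by
    intro h0
    have h1 : ((normG α β (G • f) : laurentBaseChange Qb F₀) : LaurentSeries Qb) = 0 := by
      rw [h0]; rfl
    rw [hNmL] at h1
    exact kron2_ne_zero p (hcoe0 hGf0) (hcoe0 ((smul_ne_zero_iff_ne G).mpr hδf0)) h1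
  -- the function of the relation
  set R : laurentBaseChange Qb F₀ := G • G • δ f * f ^ p * (normG α β (G • f))⁻¹ with hR
  have hR0 : R ≠ 0 := mul_ne_zero (mul_ne_zero hGGδ0 (pow_ne_zero p hf0)) (inv_ne_zero hNm0)
  have hRNm : R * normG α β (G • f) = G • G • δ f * f ^ p := by
    rw [hR, mul_assoc, inv_mul_cancel₀ hNm0, mul_one]
  -- the divisor of the relation
  set Dv : Divisor Qb (laurentBaseChange Qb F₀) := (D : Divisor Qb (laurentBaseChange Qb F₀))
    with hDv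
  set E : Divisor Qb (laurentBaseChange Qb F₀) :=
    G • G • δ • Dv - Divisor.correspondence β α hβ hα (G • Dv) + (p : ℤ) • Dv with hE
  have hGz : ∀ X : Divisor Qb (laurentBaseChange Qb F₀),
      G • ((m : ℤ) • X) = (m : ℤ) • (G • X) :=
    fun X => map_zsmul (DistribSMul.toAddMonoidHom (Divisor Qb (laurentBaseChange Qb F₀)) G) m X
  have hδz : ∀ X : Divisor Qb (laurentBaseChange Qb F₀),
      δ • ((m : ℤ) • X) = (m : ℤ) • (δ • X) :=
    fun X => map_zsmul (DistribSMul.toAddMonoidHom (Divisor Qb (laurentBaseChange Qb F₀)) δ) m X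
  have hmE : (m : ℤ) • E = G • G • δ • ((m : ℤ) • Dv)
      - Divisor.correspondence β α hβ hα (G • ((m : ℤ) • Dv))
      + (p : ℤ) • ((m : ℤ) • Dv) := by
    rw [hE, smul_add, smul_sub, hδz, hGz, hGz, hGz, map_zsmul, smul_comm (m : ℤ) (p : ℤ) Dv]
  have hfDiv : IsDivOf f ((m : ℤ) • Dv) := hfD
  have hdGGδ : IsDivOf (G • G • δ f) (G • G • δ • ((m : ℤ) • Dv)) :=
    ((isDivOf_algEquiv δ hfDiv).smul G).smul G
  have hdfp : IsDivOf (f ^ p) ((p : ℤ) • ((m : ℤ) • Dv)) := hfDiv.pow p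
  have hdT : IsDivOf (normG α β (G • f))
      (Divisor.correspondence β α hβ hα (G • ((m : ℤ) • Dv))) :=
    isDivOf_correspondenceG hα hβ hfin hN hGf0 (hfDiv.smul G)
  have hdR : ∀ v : Place Qb (laurentBaseChange Qb F₀), (m : ℤ) * E v = v.ord R := by
    intro v
    have h := congrArg v.ord hRNm
    rw [v.ord_mul hR0 hNm0, v.ord_mul hGGδ0 (pow_ne_zero p hf0), ← hdGGδ v, ← hdfp v,
      ← hdT v] at h
    have h2 := congrArg (fun X : Divisor Qb (laurentBaseChange Qb F₀) => X v) hmE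
    simp only [Finsupp.add_apply, Finsupp.sub_apply] at h2
    rw [Finsupp.smul_apply, smul_eq_mul] at h2
    linarith
  -- `ValG` for `R`
  obtain ⟨c₃, V₁, V₂, hV₁, hV₂, hc₃, hRV⟩ := hval R hR0
  -- the identity of `q`-series
  set gσ : LaurentSeries Qb →+* LaurentSeries Qb := coeffMap (σ : Qb →+* Qb) with hgσ
  have r1 : (f : LaurentSeries Qb) * coeffMap A.subtype U₂
      = HahnSeries.single 0 c * coeffMap A.subtype U₁ := by
    have h := congrArg (Subtype.val) hfu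
    rw [← coe_algebraMap_lbc (F₀ := F₀) c]
    exact h
  have r2 : ((δ f : laurentBaseChange Qb F₀) : LaurentSeries Qb) * coeffMap A.subtype W₂
      = HahnSeries.single 0 c' * coeffMap A.subtype W₁ := by
    have h := congrArg (Subtype.val) hδw
    rw [← coe_algebraMap_lbc (F₀ := F₀) c']
    exact h
  have r3 : (R : LaurentSeries Qb) * coeffMap A.subtype V₂
      = HahnSeries.single 0 c₃ * coeffMap A.subtype V₁ := by
    have h := congrArg (Subtype.val) hRV
    rw [← coe_algebraMap_lbc (F₀ := F₀) c₃]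
    exact h
  have e5 : (R : LaurentSeries Qb)
      * (qExpand Qb p (gσ (f : LaurentSeries Qb))
          * (secMat p (gσ ((δ f : laurentBaseChange Qb F₀) : LaurentSeries Qb))).det)
      = gσ (gσ ((δ f : laurentBaseChange Qb F₀) : LaurentSeries Qb))
          * (f : LaurentSeries Qb) ^ p := by
    have h := congrArg (Subtype.val) hRNm
    have h' : (R : LaurentSeries Qb)
        * ((normG α β (G • f) : laurentBaseChange Qb F₀) : LaurentSeries Qb)
        = ((G • G • δ f : laurentBaseChange Qb F₀) : LaurentSeries Qb)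
          * (f : LaurentSeries Qb) ^ p := h
    rw [hNmL] at h'
    exact h'
  have e8 : qExpand Qb p (gσ (f : LaurentSeries Qb))
        * qExpand Qb p (gσ (coeffMap A.subtype U₂))
      = qExpand Qb p (gσ (HahnSeries.single 0 c))
        * qExpand Qb p (gσ (coeffMap A.subtype U₁)) := by
    rw [← map_mul, ← map_mul, ← map_mul, ← map_mul, r1]
  have e7 : (secMat p (gσ ((δ f : laurentBaseChange Qb F₀) : LaurentSeries Qb))).det
        * (secMat p (gσ (coeffMap A.subtype W₂))).det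
      = (secMat p (gσ (HahnSeries.single 0 c'))).det
        * (secMat p (gσ (coeffMap A.subtype W₁))).det := by
    rw [← Matrix.det_mul, ← Matrix.det_mul, ← Fermat.Agent.S37.H400.secMat_mul,
      ← Fermat.Agent.S37.H400.secMat_mul, ← map_mul, ← map_mul, r2]
  have e6 : gσ (gσ ((δ f : laurentBaseChange Qb F₀) : LaurentSeries Qb))
        * gσ (gσ (coeffMap A.subtype W₂))
      = gσ (gσ (HahnSeries.single 0 c')) * gσ (gσ (coeffMap A.subtype W₁)) := by
    rw [← map_mul, ← map_mul, ← map_mul, ← map_mul, r2]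
  have e9 : (f : LaurentSeries Qb) ^ p * coeffMap A.subtype U₂ ^ p
      = (HahnSeries.single 0 c : LaurentSeries Qb) ^ p * coeffMap A.subtype U₁ ^ p := by
    rw [← mul_pow, ← mul_pow, r1]
  have hkeyL := eskV_key e5 e8 e7 e6 e9
  -- constants
  have hk₁ : qExpand Qb p (gσ (HahnSeries.single 0 c))
        * (secMat p (gσ (HahnSeries.single 0 c'))).det
      = HahnSeries.single 0 (σ c * σ c' ^ p) := by
    rw [hgσ, coeffMap_single, coeffMap_single, qExpand_single, mul_zero,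
      det_secMat_single_zero, single_zero_mul_single_zero]
    rfl
  have hk₂ : gσ (gσ (HahnSeries.single 0 c')) * (HahnSeries.single 0 c : LaurentSeries Qb) ^ p
      = HahnSeries.single 0 (σ (σ c') * c ^ p) := by
    rw [hgσ, coeffMap_single, coeffMap_single, single_zero_pow, single_zero_mul_single_zero]
    rfl
  have hκ₁ : σ c * σ c' ^ p ≠ 0 :=
    mul_ne_zero ((map_ne_zero σ).mpr hc) (pow_ne_zero p ((map_ne_zero σ).mpr hc'))
  have hκ₂ : σ (σ c') * c ^ p ≠ 0 :=
    mul_ne_zero ((map_ne_zero σ).mpr ((map_ne_zero σ).mpr hc')) (pow_ne_zero p hc)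
  set X₁ : LaurentSeries A :=
    galA g (galA g W₁) * U₁ ^ p * kron2 p (galA g U₂) (galA g W₂) with hX₁
  set X₂ : LaurentSeries A :=
    galA g (galA g W₂) * U₂ ^ p * kron2 p (galA g U₁) (galA g W₁) with hX₂
  have hser : (R : LaurentSeries Qb) * HahnSeries.single 0 (σ c * σ c' ^ p)
        * coeffMap A.subtype X₂
      = HahnSeries.single 0 (σ (σ c') * c ^ p) * coeffMap A.subtype X₁ := by
    rw [hX₁, hX₂, coeffMap_subtype_eskX, coeffMap_subtype_eskX, ← hk₁, ← hk₂]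
    exact hkeyL
  -- the unit constant
  have hredX : coeffMap (residue A) X₁ = coeffMap (residue A) X₂ :=
    coeffMap_residue_eskX hgk U₁ U₂ W₁ W₂
  have hX₁0 : coeffMap (residue A) X₁ ≠ 0 :=
    coeffMap_residue_eskX_ne_zero hgk h₁.2.2 h₂.2.2 hW₁.2.2 hW₂.2.2
  have hX₂0 : coeffMap (residue A) X₂ ≠ 0 := hredX ▸ hX₁0
  have hκeq : HahnSeries.single (0 : ℤ) (c₃ * (σ c * σ c' ^ p) / (σ (σ c') * c ^ p))
        * coeffMap A.subtype (V₁ * X₂)
      = coeffMap A.subtype (X₁ * V₂) := by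
    have hκ : (HahnSeries.single (0 : ℤ) (σ (σ c') * c ^ p) : LaurentSeries Qb)
          * HahnSeries.single 0 (c₃ * (σ c * σ c' ^ p) / (σ (σ c') * c ^ p))
        = HahnSeries.single 0 c₃ * HahnSeries.single 0 (σ c * σ c' ^ p) := by
      rw [single_zero_mul_single_zero, single_zero_mul_single_zero, mul_div_cancel₀ _ hκ₂]
    have hK₂0 : (HahnSeries.single (0 : ℤ) (σ (σ c') * c ^ p) : LaurentSeries Qb) ≠ 0 := by
      rw [Ne, HahnSeries.single_eq_zero_iff]
      exact hκ₂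
    apply mul_left_cancel₀ hK₂0
    rw [map_mul (coeffMap A.subtype) V₁ X₂, map_mul (coeffMap A.subtype) X₁ V₂]
    linear_combination (coeffMap A.subtype V₁ * coeffMap A.subtype X₂) * hκ
      - (HahnSeries.single 0 (σ c * σ c' ^ p) * coeffMap A.subtype X₂) * r3
      + (coeffMap A.subtype V₂) * hser
  obtain ⟨a, ha, haκ⟩ := exists_unit_of_const_mul_eq
    (by rw [map_mul]; exact mul_ne_zero hV₁.2.2 hX₂0)
    (by rw [map_mul]; exact mul_ne_zero hX₁0 hV₂.2.2) hκeq
  have hV₁' : IsIntG F₀ A Fk (HahnSeries.single (0 : ℤ) a * V₁) := isIntG_const_mul ha hV₁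
  have hredV : coeffMap (residue A) (HahnSeries.single (0 : ℤ) a * V₁)
      = coeffMap (residue A) V₂ := by
    have e : HahnSeries.single (0 : ℤ) a * V₁ * X₂ = X₁ * V₂ := by
      apply Fermat.Agent.S29.H222.esk_coeffMap_subtype_injective
      rw [← hκeq, ← haκ, mul_assoc,
        map_mul (coeffMap A.subtype) (HahnSeries.single (0 : ℤ) a) (V₁ * X₂), coeffMap_single]
      rfl
    have e' := congrArg (coeffMap (residue A)) e
    rw [map_mul, map_mul (coeffMap (residue A)) X₁ V₂, hredX, mul_comm] at e'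
    exact mul_left_cancel₀ hX₂0 e'
  -- orders
  have hkey : ∀ v : Place Qb (laurentBaseChange Qb F₀),
      (m : ℤ) * E v = v.ord (toFG hV₁') - v.ord (toFG hV₂) := by
    intro v
    have h := congrArg v.ord hRV
    have ha0 : (a : Qb) ≠ 0 := by
      intro h0
      exact ha.ne_zero (Subtype.ext h0)
    rw [v.ord_mul hR0 (toFG_ne_zero hV₂),
      v.ord_mul ((map_ne_zero _).mpr hc₃) (toFG_ne_zero hV₁),
      Fermat.Agent.S29.H222.esk_ord_algebraMap v hc₃] at h
    rw [toFG_const_mul ha hV₁, v.ord_mul ((map_ne_zero _).mpr ha0) (toFG_ne_zero hV₁),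
      Fermat.Agent.S29.H222.esk_ord_algebraMap v ha0, hdR v]
    linarith
  have hord : ∀ v : Place Qb (laurentBaseChange Qb F₀),
      (m : ℤ) ∣ v.ord (toFG hV₁') - v.ord (toFG hV₂) := fun v => ⟨_, (hkey v).symm⟩
  obtain ⟨c₄, y, hc₄, hy, hcy⟩ := hcore _ _ hV₁' hV₂ hredV hord
  have hEy : IsDivOf y E :=
    Fermat.Agent.S29.H222.isDivOf_of_eq_const_mul_pow hm hc₄ hy (toFG_ne_zero hV₂) hcy hkey
  -- conclusion in `Pic0`
  rw [Pic0.smul_mk, galois_smul_mkG, galois_smul_mkG, galois_smul_mkG, Pic0.correspondence_mk]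
  have hfinal : (Pic0.mk (SemilinearAut.degZeroSMulHom G
        (SemilinearAut.degZeroSMulHom G (Pic0.degZeroSMulHom δ D)))
      - Pic0.mk (Pic0.degZeroCorrespondence β α hβ hα hFI (SemilinearAut.degZeroSMulHom G D))
      + (p : ℤ) • Pic0.mk D : Pic0 Qb (laurentBaseChange Qb F₀))
      = Pic0.mk (SemilinearAut.degZeroSMulHom G
          (SemilinearAut.degZeroSMulHom G (Pic0.degZeroSMulHom δ D))
          - Pic0.degZeroCorrespondence β α hβ hα hFI (SemilinearAut.degZeroSMulHom G D)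
          + (p : ℤ) • D) := rfl
  rw [hfinal]
  exact pic0_mk_eq_zero_of_isDivOfG _ hy hEy

/-- **Generic ESK-F with diamond, version 2, second form**:
`σ² x - T (δ⁻¹ σ x) + p δ⁻¹ x = 0`. -/
theorem eskV_frob' {p : ℕ} (hp : p.Prime) {m : ℕ} (hm : m ≠ 0) (hA : A.LiesOverPrime p)
    (hcore : CoreG F₀ A Fk m) (hval : ValG F₀ A Fk) (hst : StableG A Fk)
    {F' : Type*} [Field F'] [Algebra Qb F'] [HasPrincipalDivisors Qb F']
    (α β : laurentBaseChange Qb F₀ →ₐ[Qb] F')
    (hα : α.toRingHom.IsIntegral) (hβ : β.toRingHom.IsIntegral)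
    (hFI : FundamentalIdentityAlong Qb β hβ) (hfin : FiniteAlong Qb α)
    (hN : NormFormulaAlong Qb α hfin)
    (δ : laurentBaseChange Qb F₀ ≃ₐ[Qb] laurentBaseChange Qb F₀)
    (hgal : ∀ (σ : Qb ≃ₐ[ℚ] Qb) (y : laurentBaseChange Qb F₀),
      δ (arithmeticGalois F₀ σ • y) = arithmeticGalois F₀ σ • δ y)
    (hnid : haveI : NeZero p := ⟨hp.ne_zero⟩; NormIdG α β p δ) :
    ∀ σ : Qb ≃ₐ[ℚ] Qb, A.IsFrobeniusAt σ p →
      ∀ x : Pic0 Qb (laurentBaseChange Qb F₀), (m : ℤ) • x = 0 →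
        σ • σ • x - Pic0.correspondence β α hβ hα hFI hfin hN (δ⁻¹ • (σ • x))
          + (p : ℤ) • (δ⁻¹ • x) = 0 := by
  intro σ hσ x hx
  have hx' : (m : ℤ) • (δ⁻¹ • x) = 0 := by
    have h1 : δ⁻¹ • ((m : ℤ) • x) = (m : ℤ) • (δ⁻¹ • x) :=
      map_zsmul (DistribSMul.toAddMonoidHom (Pic0 Qb (laurentBaseChange Qb F₀)) δ⁻¹) m x
    rw [← h1, hx]
    exact map_zero (DistribSMul.toAddMonoidHom (Pic0 Qb (laurentBaseChange Qb F₀)) δ⁻¹)
  have hcomm : δ⁻¹ • (σ • x) = σ • (δ⁻¹ • x) := by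
    have h : δ • (σ • (δ⁻¹ • x)) = σ • (δ • (δ⁻¹ • x)) := by
      rw [galois_smul_pic0_def, galois_smul_pic0_def]
      exact pic0_smul_comm δ (arithmeticGalois F₀ σ) (fun y => hgal σ y) (δ⁻¹ • x)
    rw [smul_inv_smul] at h
    rw [← h, inv_smul_smul]
  have h := eskV_frob hp hm hA hcore hval hst α β hα hβ hFI hfin hN δ hgal hnid σ hσ
    (δ⁻¹ • x) hx'
  rw [smul_inv_smul, ← hcomm] at h
  exact h

end Fermat.Agent.S48.H136
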