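/-
S48 / Tower A1 (helper136) — node A1-ES: the ADAPTER, version 2

    `rawES1_of_val : Core1Statement → Val1Statement → HI1Statement → NormId1Statement →
        Res.RawES1Statement true`

from the generic engine `ESKV.lean` to the frozen shape of `Fermat/Agent/S48/Res/Parts.lean`, for
`(F₀, F', F_k, δ) = (F1 M, ℚ̄·F1p M p, F1C k M, diamondAut (unitOf M p))`.

The FOUR inputs (all for primes `p ∤ M` and valuation subrings `A ⊆ ℚ̄` above `p`, `k = A/𝔪`):

* `Core1Statement`   : the Kummer core `CoreG (F1 M) A (F1C k M) ℓ`, `ℓ ≠ p` prime   [A1-RED];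
* `Val1Statement`    : `ValG (F1 M) A (F1C k M)`: every `f ≠ 0` in `ℚ̄·F1 M` is `c · u₁/u₂` with
                       `u₁ u₂` integral series (Gauss lemma; port of `S37/H700` `pgi`)  [A1-RED];
* `HI1Statement`     : `CorrInputs (beta1) (alpha1)`                                   [A1-FF];
* `NormId1Statement` : `Nm_α (β y) = V_p y · det (secMat p (δ_p y))`                   [A1-NORM].

This REPLACES `rawES1_of_inputs` of `RawES1.lean`, whose input `DiamondInt1Statement` (the diamond
preserves series with integral `q`-expansion) is false for `p ≢ ±1` mod `M`; `PGI1Statement` is no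
longer needed.
-/
import Fermat.Agent.S48.H136.ESKV
import Fermat.Agent.S48.H136.RawES1

set_option autoImplicit false
set_option linter.style.haveILetI false

noncomputable section

namespace Fermat.Agent.S48.H136

open ModularCurve AlgebraicCurve HahnSeries IsLocalRing
open Fermat.Agent.S18 (Qb)
open Fermat.Agent.S48.F1 Fermat.Agent.S48.Res

/-- **VAL1**: every nonzero element of `ℚ̄ · F1 M` is a constant times a quotient of two integral
series, at every place `A` above a prime `p ∤ M`. -/
def Val1Statement : Prop :=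
  ∀ (M p : ℕ), M ≠ 0 → p.Prime → ¬ p ∣ M →
    ∀ A : ValuationSubring Qb, A.LiesOverPrime p → ValG (F1 M) A (F1C (ResidueField A) M)

/-- **RawES1 from its four inputs** (exact shape of `Res/Parts.lean`, orientation `s = true`). -/
theorem rawES1_of_val (hcore : Core1Statement) (hval : Val1Statement) (hHI : HI1Statement)
    (hnid : NormId1Statement) : RawES1Statement true := by
  intro M ℓ p hM hℓ hp hpMℓ A hA
  have hpM : ¬ p ∣ M := fun h => hpMℓ (Dvd.dvd.mul_right h ℓ)
  haveI : NeZero p := ⟨hp.ne_zero⟩
  have hC := hcore M ℓ p hM hℓ hp hpMℓ A hA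
  have hV := hval M p hM hp hpM A hA
  have hst := stableG_F1C A M
  refine ⟨eskV_inertia hℓ.ne_zero hC hV hst, ?_⟩
  intro σ hσ x hx
  obtain ⟨hβ, hα, hPD, hfin, hFI, hN⟩ := hHI M p hM hp hpM
  haveI := hPD
  have h := eskV_frob hp hℓ.ne_zero hA hC hV hst (alpha1 Qb M p) (beta1 Qb M p) hα hβ hFI hfin hN
    (diamondAut Qb M (unitOf M p)) (fun τ y => diamondAut_galois M (unitOf M p) τ y)
    (hnid M p hM hp hpM) σ hσ x hx
  have hT : hecke1 M p = (Pic0.correspondence (beta1 Qb M p) (alpha1 Qb M p) hβ hα hFI hfin
      hN).toIntLinearMap := by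
    rw [hecke1_eq, heckeL, corrOp_eq (beta1 Qb M p) (alpha1 Qb M p) hβ hα hFI hfin hN]
  have hD : diamondS true M p (σ • σ • x)
      = σ • σ • (diamondAut Qb M (unitOf M p) • x) := by
    show diamond1 M (unitOf M p) (σ • σ • x) = _
    rw [galois_smul_diamond1, galois_smul_diamond1, diamond1_apply, pic0_ofAlgAut_smul]
  rw [hD, hT]
  exact h

end Fermat.Agent.S48.H136
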