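/-
S48 / Tower A1 (helper136) — node A1-ES: the ADAPTER, version 2, TOP form (`F_k := ⊤`)

    `rawES1_of_valTop : H556.Core1Top → Val1Top → HI1Statement → NormId1Statement →
        Res.RawES1Statement true`

`Val1Top` is the bare Gauss normalisation: every `f ≠ 0` in `ℚ̄ · F1 M` is `c · U₁ / U₂`, `c ∈ ℚ̄ˣ`,
`U₁ U₂ ∈ A((q))` lying in `ℚ̄ · F1 M` with nonzero reduction.  Compared with `H556.rawES1_of_val`:

* NO clause about the diamond (`⟨p⟩ U_i` integral is not needed: engine `H136.eskV_frob`);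
* NO `HasPD1` (`HasPrincipalDivisors` of `ℚ̄ · F1 M` is not needed).

`valG_of_ratio` : the hypothesis of `H556.pgidG_of_ratio` (hence `H556.ValD1Top`) implies `ValG`,
so every proof of `ValD1Top` is a proof of `Val1Top`.
-/
import Fermat.Agent.S48.H136.ESKV
import Fermat.Agent.S48.H556.RawES1Top

set_option autoImplicit false
set_option linter.style.haveILetI false

noncomputable section

namespace Fermat.Agent.S48.H136

open ModularCurve AlgebraicCurve HahnSeries IsLocalRing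
open Fermat.Agent.S18 (Qb)
open Fermat.Agent.S48.F1 Fermat.Agent.S48.Res Fermat.Agent.S48.H556

/-- `ValG` from the "diamond-integral ratio" data (the diamond clause is simply forgotten). -/
theorem valG_of_ratio {F₀ : IntermediateField ℚ (LaurentSeries ℚ)} {A : ValuationSubring Qb}
    {Fk : IntermediateField (ResidueField A) (LaurentSeries (ResidueField A))}
    {δ : laurentBaseChange Qb F₀ ≃ₐ[Qb] laurentBaseChange Qb F₀}
    (h : ∀ f : laurentBaseChange Qb F₀, f ≠ 0 →
      ∃ (c : Qb) (U₁ U₂ W₁ W₂ : LaurentSeries A) (h₁ : IsIntG F₀ A Fk U₁)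
        (h₂ : IsIntG F₀ A Fk U₂) (hW₁ : IsIntG F₀ A Fk W₁) (hW₂ : IsIntG F₀ A Fk W₂),
        c ≠ 0 ∧ toFG hW₁ = δ (toFG h₁) ∧ toFG hW₂ = δ (toFG h₂) ∧
          f * toFG h₂ = algebraMap Qb (laurentBaseChange Qb F₀) c * toFG h₁) :
    ValG F₀ A Fk := by
  intro f hf
  obtain ⟨c, U₁, U₂, _, _, h₁, h₂, _, _, hc, _, _, hfU⟩ := h f hf
  exact ⟨c, U₁, U₂, h₁, h₂, hc, hfU⟩

/-- **VAL1 (top form)**: every nonzero `f ∈ ℚ̄ · F1 M` is `c · U₁ / U₂` with `U₁, U₂` `A`-integral
series with nonzero reduction (Gauss normalisation; no diamond, no reduction field). -/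
def Val1Top : Prop :=
  ∀ (M p : ℕ), M ≠ 0 → p.Prime → ¬ p ∣ M →
    ∀ A : ValuationSubring Qb, A.LiesOverPrime p → ValG (F1 M) A (topK A)

/-- **RawES1 from `Core1Top`, `Val1Top`, `HI1`, `NormId1`** (exact shape of `Res/Parts.lean`,
orientation `s = true`). -/
theorem rawES1_of_valTop (hcore : Core1Top) (hval : Val1Top) (hHI : HI1Statement)
    (hnid : NormId1Statement) : RawES1Statement true := by
  intro M ℓ p hM hℓ hp hpMℓ A hA
  have hpM : ¬ p ∣ M := fun h => hpMℓ (Dvd.dvd.mul_right h ℓ)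
  haveI : NeZero p := ⟨hp.ne_zero⟩
  have hC := hcore M ℓ p hM hℓ hp hpMℓ A hA
  have hV := hval M p hM hp hpM A hA
  have hst := stableG_top A
  refine ⟨eskV_inertia hℓ.ne_zero hC hV hst, ?_⟩
  intro σ hσ x hx
  obtain ⟨hβ, hα, hPD, hfin, hFI, hN⟩ := hHI M p hM hp hpM
  haveI := hPD
  have h := eskV_frob hp hℓ.ne_zero hA hC hV hst (alpha1 Qb M p) (beta1 Qb M p) hα hβ hFI hfin hN
    (diamondAut Qb M (unitOf M p)) (fun τ y => diamondAut_galois M (unitOf M p) τ y)
    (hnid M p hM hp hpM) σ hσ x hx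
  have hT : hecke1 M p = (Pic0.correspondence (beta1 Qb M p) (alpha1 Qb M p) hβ hα hFI hfin
      hN).toIntLinearMap := by
    rw [hecke1_eq, heckeL, corrOp_eq (beta1 Qb M p) (alpha1 Qb M p) hβ hα hFI hfin hN]
  have hD : diamondS true M p (σ • σ • x)
      = σ • σ • (diamondAut Qb M (unitOf M p) • x) := by
    show diamond1 M (unitOf M p) (σ • σ • x) = _
    rw [galois_smul_diamond1, galois_smul_diamond1, diamond1_apply, pic0_ofAlgAut_smul]
  rw [hD, hT]
  exact h

end Fermat.Agent.S48.H136
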